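import Fermat.Agent.S27.Lef.ModelComplexAux5942

/-!
# S27, package F, leaf F5b: base change to `ℂ`

LEAF `exists_complex_model` : a function field over a countable algebraically closed field `k1`
of characteristic zero has a base change to `ℂ` (living in `Type`).

Proof (helper5942): `k1` embeds into `ℂ` (helper9674 `exists_ringHom_complex`); `F1` is countable,
hence has a copy `Shrink F1 : Type`; `ℂ ⊗[k1] Shrink F1` is a domain because `k1` is algebraically
closed (helper9674 `isDomain_tensorProduct`); `FC := FractionRing (ℂ ⊗[k1] Shrink F1)`.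
-/

set_option autoImplicit false

namespace Fermat.Agent.S27.Lef

open AlgebraicCurve IntermediateField
/-- LEAF F5b. -/
theorem exists_complex_model (k1 F1 : Type*) [Field k1] [Field F1] [Algebra k1 F1]
    [IsAlgClosed k1] [CharZero k1] [Countable k1] (h1 : IsFunctionField k1 F1) :
    ∃ (FC : Type) (_ : Field FC) (_ : Algebra ℂ FC) (_ : Algebra k1 ℂ) (_ : Algebra F1 FC)
      (_ : Algebra k1 FC) (_ : IsScalarTower k1 ℂ FC) (_ : IsScalarTower k1 F1 FC),
      IsBC k1 ℂ F1 FC := by
  obtain ⟨φ⟩ := H9674.exists_ringHom_complex k1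
  letI algC : Algebra k1 ℂ := φ.toAlgebra
  haveI : Countable F1 := MC5942.countable_of_isFunctionField h1
  haveI : Small.{0} F1 := Countable.toSmall F1
  obtain ⟨FC, i1, i2, i3, i4, i5, i6, h⟩ :=
    MC5942.exists_model_of_algEquiv (K := ℂ) (Shrink.algEquiv k1 F1).symm h1
  exact ⟨FC, i1, i2, algC, i3, i4, i5, i6, h⟩

end Fermat.Agent.S27.Lef
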