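import Fermat.Agent.S27.Lef.ModelCountable
import Fermat.Agent.S27.Lef.ModelComplex

/-!
# S27, package F, F5: models over countable fields and over `ℂ` (umbrella file)
-/
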