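import Fermat.Agent.S27.Lef.Descent
import Fermat.Agent.S27.Lef.Models

/-!
# S27, package F, F6: the Lefschetz transfer (assembly; sorry-free on top of the leaves)

`lefschetz_transfer`: if `#Pic0(F)[n] = n^(2g)` for all function fields over `ℂ`, the same
holds for all function fields over all algebraically closed fields of characteristic zero.
-/

set_option autoImplicit false

namespace Fermat.Agent.S27.Lef

open AlgebraicCurve IntermediateField

universe u v

section transfer

variable {k K F0 F : Type*} [Field k] [Field K] [Field F0] [Field F]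
  [Algebra k K] [Algebra k F0] [Algebra K F] [Algebra F0 F] [Algebra k F]
  [IsScalarTower k K F] [IsScalarTower k F0 F]
  [IsAlgClosed k] [IsAlgClosed K] [CharZero k]

theorem IsBC.extPic0_mem_torsion_iff (h : IsBC k K F0 F) (n : ℕ) (z0 : Pic0 k F0) :
    h.extPic0 z0 ∈ Pic0.torsion K F n ↔ z0 ∈ Pic0.torsion k F0 n := by
  rw [Pic0.mem_torsion, Pic0.mem_torsion, ← map_zsmul]
  constructor
  · intro hz
    exact h.extPic0_injective (by rw [hz, map_zero])
  · intro hz
    rw [hz, map_zero]

/-- The map on `n`-torsion induced by base change. -/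
noncomputable def IsBC.extTorsion (h : IsBC k K F0 F) (n : ℕ) :
    Pic0.torsion k F0 n → Pic0.torsion K F n :=
  fun z0 => ⟨h.extPic0 z0, (h.extPic0_mem_torsion_iff n z0).mpr z0.2⟩

theorem IsBC.extTorsion_injective (h : IsBC k K F0 F) (n : ℕ) :
    Function.Injective (h.extTorsion n) := by
  intro a b hab
  exact Subtype.ext (h.extPic0_injective (congrArg Subtype.val hab))

theorem IsBC.card_torsion_eq_of_finite (h : IsBC k K F0 F) (n : ℕ)
    [Finite (Pic0.torsion K F n)] :
    Nat.card (Pic0.torsion k F0 n) = Nat.card (Pic0.torsion K F n) := by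
  apply Nat.card_eq_of_bijective (h.extTorsion n)
  refine ⟨h.extTorsion_injective n, ?_⟩
  rintro ⟨z, hz⟩
  obtain ⟨z0, rfl⟩ := h.exists_extPic0_eq_of_finite n hz
  exact ⟨⟨z0, (h.extPic0_mem_torsion_iff n z0).mp hz⟩, rfl⟩

end transfer

/-- The count over countable algebraically closed fields, from the count over `ℂ`. -/
theorem card_torsion_of_countable
    (hC : CountOverComplex)
    (k1 : Type u) (F1 : Type v) [Field k1] [Field F1] [Algebra k1 F1] [IsAlgClosed k1]
    [CharZero k1] [Countable k1] (h1 : IsFunctionField k1 F1) (n : ℕ) (hn : 0 < n) :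
    Nat.card (Pic0.torsion k1 F1 n) = n ^ (2 * genusFF k1 F1) := by
  obtain ⟨FC, _, _, _, _, _, _, _, h⟩ := exists_complex_model k1 F1 h1
  have hc := hC FC h.isFF_top n hn
  haveI : Finite (Pic0.torsion ℂ FC n) :=
    Nat.finite_of_card_ne_zero (by rw [hc]; positivity)
  rw [h.card_torsion_eq_of_finite n, hc, h.genusFF_eq]

/-- **Lefschetz transfer** (package F of the S27 route). -/
theorem lefschetz_transfer
    (hC : CountOverComplex)
    {K : Type u} {F : Type v} [Field K] [Field F] [Algebra K F] [IsAlgClosed K] [CharZero K]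
    (hF : IsFunctionField K F) (n : ℕ) (hn : 0 < n) :
    Nat.card (Pic0.torsion K F n) = n ^ (2 * genusFF K F) := by
  classical
  -- every finite set of `n`-torsion classes has at most `n^(2g)` elements
  have key : ∀ S : Finset (Pic0 K F), (∀ z ∈ S, z ∈ Pic0.torsion K F n) →
      S.card ≤ n ^ (2 * genusFF K F) := by
    intro S hS
    choose D hD using fun z : Pic0 K F => Pic0.mk_surjective z
    obtain ⟨k1, F1, hk1, hk1c, h, hT⟩ :=
      exists_countable_model hF (S.biUnion fun z => (D z : Divisor K F).support)
    have hcard := card_torsion_of_countable hC k1 F1 h.isFF n hn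
    haveI : Finite (Pic0.torsion k1 F1 n) :=
      Nat.finite_of_card_ne_zero (by rw [hcard]; positivity)
    have hex : ∀ z : S, ∃ z0 : Pic0.torsion k1 F1 n, h.extPic0 z0 = z := by
      rintro ⟨z, hz⟩
      obtain ⟨D0, hD0⟩ := h.exists_extDiv_eq (D z : Divisor K F)
        (fun Q hQ => hT Q (Finset.mem_biUnion.mpr ⟨z, hz, hQ⟩))
      have hdeg : D0 ∈ Divisor.degZero (K := k1) (F := F1) := by
        rw [Divisor.mem_degZero, ← h.degree_extDiv, hD0]
        exact (D z).2
      have hz0 : h.extPic0 (Pic0.mk ⟨D0, hdeg⟩) = z := by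
        rw [h.extPic0_mk, ← hD z]
        congr 1
        exact Subtype.ext hD0
      exact ⟨⟨Pic0.mk ⟨D0, hdeg⟩,
        (h.extPic0_mem_torsion_iff n _).mp (hz0 ▸ hS z hz)⟩, hz0⟩
    choose f hf using hex
    have hinj : Function.Injective f := by
      intro a b hab
      apply Subtype.ext
      rw [← hf a, ← hf b, hab]
    calc S.card = Nat.card S := by rw [Nat.card_eq_fintype_card, Fintype.card_coe]
      _ ≤ Nat.card (Pic0.torsion k1 F1 n) := Nat.card_le_card_of_injective f hinj
      _ = n ^ (2 * genusFF K F) := by rw [hcard, h.genusFF_eq]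
  -- hence the torsion subgroup is finite
  have hfin : (Pic0.torsion K F n : Set (Pic0 K F)).Finite := by
    by_contra hinf
    obtain ⟨S, hS, hScard⟩ :=
      Set.Infinite.exists_subset_card_eq hinf (n ^ (2 * genusFF K F) + 1)
    have := key S (fun z hz => hS hz)
    omega
  haveI : Finite (Pic0.torsion K F n) := hfin.to_subtype
  apply le_antisymm
  · have h1 := key hfin.toFinset (fun z hz => by simpa using hz)
    have h2 : Nat.card (Pic0.torsion K F n) = hfin.toFinset.card := by
      rw [← Set.ncard_eq_toFinset_card _ hfin]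
      exact Nat.card_coe_set_eq _
    rw [h2]
    exact h1
  · obtain ⟨k1, F1, hk1, hk1c, h, -⟩ := exists_countable_model hF ∅
    rw [h.genusFF_eq, ← card_torsion_of_countable hC k1 F1 h.isFF n hn]
    exact Nat.card_le_card_of_injective _ (h.extTorsion_injective n)

end Fermat.Agent.S27.Lef
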