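import Mathlib
import Fermat.Prelude.Def_AlgebraicCurve_DivisorClassGroup
import Fermat.Prelude.Def_AlgebraicCurve_Repartitions

/-!
# S27, package F (Lefschetz transfer) — top-level statement  (helper8666)

`lefschetz_transfer`: if the torsion count `#Pic0(F)[n] = n ^ (2 g)` holds for every function field
in one variable over `ℂ`, then it holds over every algebraically closed field of characteristic `0`.

"Function field" is spelled out as `∃ x, Transcendental K x ∧ FiniteDimensional K⟮x⟯ F`
(definitionally the `IsFF K F` of the S24 library), so this file has no dependency besides the
Prelude.  The proof is pure algebra (route note origin/helper9506:notes/S27_route_helper9506.md,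
package F); the skeleton of the proof lives in `Fermat/Agent/S27/Lef/*.lean` (see notes/S27_F_*.md).
-/

set_option autoImplicit false

open AlgebraicCurve IntermediateField

namespace Fermat.Agent.S27.Lef

universe u v

/-- `F / K` is a function field in one variable (same as `IsFF` of the S24 library). -/
def IsFunctionField (K : Type u) (F : Type v) [Field K] [Field F] [Algebra K F] : Prop :=
  ∃ x : F, Transcendental K x ∧ FiniteDimensional K⟮x⟯ F

/-- The torsion count over `ℂ` (output of packages A–E of the route). -/
def CountOverComplex : Prop :=
  ∀ (F : Type) [Field F] [Algebra ℂ F], IsFunctionField ℂ F →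
    ∀ n : ℕ, 0 < n → Nat.card (Pic0.torsion ℂ F n) = n ^ (2 * genusFF ℂ F)

end Fermat.Agent.S27.Lef
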