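import Fermat.Agent.S27.Lef.Defs
import Fermat.Agent.S24.A564.RHAssembly
import Fermat.Agent.S27.A.NonSpecial
import Fermat.Agent.S27.A.Bridge
import Fermat.Agent.S27.A1h326
import Fermat.Agent.S27.RevBridge5054

/-!
# S27, package F: facts about ONE function field used by the Lefschetz transfer  (helper2906)

`K` algebraically closed of characteristic zero, `F/K` a function field (`IsFunctionField K F`).

* Part 1 (sorry-free): consequences of the landed S24 library `Fermat.Agent.S24.A564`.
* Part 2 (interface to package A of the route; `sorry` until package A lands):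
  A1 (valuation subrings are places), A2 (`L(D)` finite-dimensional),
  A6 (`H1(D)` finite-dimensional, `l(D) - i(D) = deg D + 1 - g`, `i(D) = 0` for `deg D` large).
-/

set_option autoImplicit false

namespace Fermat.Agent.S27.Lef

open AlgebraicCurve IntermediateField

variable {K F : Type*} [Field K] [Field F] [Algebra K F]

namespace IsFunctionField

/-! ### Part 1: from the S24 library -/

section
variable [CharZero K]

theorem finiteDimensional (hF : IsFunctionField K F) {t : F} (ht : Transcendental K t) :
    FiniteDimensional K⟮t⟯ F := by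
  obtain ⟨x, hx, hfin⟩ := hF
  exact Fermat.Agent.S24.A564.finiteDimensional_adjoin_of_transcendental x t hx ht

variable [IsAlgClosed K]

theorem place_deg_eq_one (hF : IsFunctionField K F) (v : Place K F) : v.deg = 1 := by
  obtain ⟨x, hx, hfin⟩ := hF
  exact Fermat.Agent.S24.A564.deg_eq_one x hx v

theorem residue_surjective (hF : IsFunctionField K F) (v : Place K F) :
    Function.Surjective (algebraMap K v.ResidueField) := by
  obtain ⟨x, hx, hfin⟩ := hF
  exact (Fermat.Agent.S24.A564.local_facts x hx v).2

/-- Zeros of a transcendental element, counted with multiplicity, sum up to the degree. -/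
theorem exists_finset_zeros (hF : IsFunctionField K F) {s : F} (hs : Transcendental K s) :
    ∃ S : Finset (Place K F), (∀ v, v ∈ S ↔ 0 < v.ord s) ∧
      ∑ v ∈ S, v.ord s = (Module.finrank K⟮s⟯ F : ℤ) := by
  haveI := hF.finiteDimensional hs
  exact Fermat.Agent.S24.A564.SO.exists_finset_zeros_sum_ord s hs

/-- A principal divisor has degree zero (finite-support form). -/
theorem exists_finset_sum_ord_eq_zero (hF : IsFunctionField K F) (f : F) :
    ∃ T : Finset (Place K F), (∀ v, v ∉ T → v.ord f = 0) ∧ ∑ v ∈ T, v.ord f = 0 := by
  obtain ⟨x, hx, hfin⟩ := hF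
  exact Fermat.Agent.S24.A564.exists_finset_sum_ord_eq_zero x hx f

theorem degree_eq_sum (hF : IsFunctionField K F) (D : Divisor K F) :
    Divisor.degree D = ∑ v ∈ D.support, D v := by
  unfold Divisor.degree
  rw [Finsupp.liftAddHom_apply, Finsupp.sum]
  refine Finset.sum_congr rfl fun v _ => ?_
  simp [hF.place_deg_eq_one v]

theorem degree_eq_zero_of_principal (hF : IsFunctionField K F) {D : Divisor K F}
    (hD : D ∈ Divisor.principal (K := K) (F := F)) : Divisor.degree D = 0 := by
  classical
  obtain ⟨f, hf, hDf⟩ := hD
  obtain ⟨T, hT, hsum⟩ := hF.exists_finset_sum_ord_eq_zero f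
  rw [hF.degree_eq_sum]
  have hsub : D.support ⊆ T := by
    intro v hv
    rw [Finsupp.mem_support_iff, hDf v] at hv
    by_contra hvT
    exact hv (hT v hvT)
  rw [Finset.sum_subset hsub (fun v _ hv => by simpa using hv)]
  rw [← hsum]
  exact Finset.sum_congr rfl fun v _ => hDf v

/-- The divisor of a nonzero function. -/
theorem exists_divisor (hF : IsFunctionField K F) (f : F) :
    ∃ D : Divisor K F, ∀ v : Place K F, D v = v.ord f := by
  classical
  obtain ⟨T, hT, -⟩ := hF.exists_finset_sum_ord_eq_zero f
  refine ⟨Finsupp.onFinset T (fun v => v.ord f) (fun v hv => ?_), fun v => rfl⟩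
  by_contra hvT
  exact hv (hT v hvT)

/-- A function field has a place. -/
theorem nonempty_place (hF : IsFunctionField K F) : Nonempty (Place K F) := by
  obtain ⟨x, hx, hfin⟩ := id hF
  obtain ⟨S, hS, hsum⟩ := hF.exists_finset_zeros hx
  have hpos : 0 < Module.finrank K⟮x⟯ F := Module.finrank_pos
  by_contra hne
  rw [not_nonempty_iff] at hne
  have hS0 : S = ∅ := Finset.eq_empty_of_isEmpty S
  rw [hS0, Finset.sum_empty] at hsum
  omega

/-- An effective divisor of degree zero is zero. -/
theorem eq_zero_of_nonneg_of_degree_eq_zero (hF : IsFunctionField K F) {D : Divisor K F}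
    (hD : ∀ v, 0 ≤ D v) (hdeg : Divisor.degree D = 0) : D = 0 := by
  rw [hF.degree_eq_sum] at hdeg
  have h0 := (Finset.sum_eq_zero_iff_of_nonneg (fun v _ => hD v)).mp hdeg
  ext v
  by_cases hv : v ∈ D.support
  · exact h0 v hv
  · simpa using hv

end

/-! ### Part 2: interface to package A — FILLED by helper242 from the assembled package A
(`Fermat.Agent.S27.A.*`, skeleton of helper8976), `A1h326` (helper326) and the reverse bridge
`RevBridge5054` (helper5054).  Statements unchanged. -/

variable [IsAlgClosed K] [CharZero K]

/-- auxiliary: the standing hypotheses of package A hold for a function field. -/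
theorem hypA242 (hF : IsFunctionField K F) : A.Hyp K F := by
  haveI : IsCurveOver K F := RevBridge5054.isCurveOver_of_exists hF
  haveI : Algebra.EssFiniteType K F := RevBridge5054.essFiniteType_of_exists hF
  exact A.hyp_of_isCurveOver

/-- A1: a nontrivial valuation subring of `F` containing `K` is a discrete valuation ring. -/
theorem isPrincipalIdealRing_of_ne_top (hF : IsFunctionField K F) (O : ValuationSubring F)
    (hK : ∀ a : K, algebraMap K F a ∈ O) (hO : O ≠ ⊤) : IsPrincipalIdealRing O := by
  obtain ⟨x, hx, hfd⟩ := id hF
  obtain ⟨v, rfl⟩ := A1h326.exists_place_of_valuationSubring x hx O hK hO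
  exact v.isPrincipalIdealRing'

/-- A2: Riemann–Roch spaces are finite-dimensional. -/
theorem finiteDimensional_riemannRochSpace (hF : IsFunctionField K F) (D : Divisor K F) :
    FiniteDimensional K (riemannRochSpace D) :=
  A.finite_ell hF.hypA242 D

/-- A6: `H1(D)` is finite-dimensional. -/
theorem finiteDimensional_H1 (hF : IsFunctionField K F) (D : Divisor K F) :
    FiniteDimensional K (H1 D) :=
  A.finite_H1 hF.hypA242 D

/-- A6: Riemann–Roch in the form `l(D) - i(D) = deg D + 1 - g`. -/
theorem riemannRoch_eq (hF : IsFunctionField K F) (D : Divisor K F) :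
    (Module.finrank K (riemannRochSpace D) : ℤ) - (Module.finrank K (H1 D) : ℤ)
      = Divisor.degree D + 1 - (genusFF K F : ℤ) :=
  A.riemann' hF.hypA242 D

/-- A6: `i(D) = 0` for divisors of large degree. -/
theorem exists_forall_finrank_H1_eq_zero (hF : IsFunctionField K F) :
    ∃ c : ℤ, ∀ D : Divisor K F, c ≤ Divisor.degree D → Module.finrank K (H1 D) = 0 :=
  A.exists_spec_eq_zero hF.hypA242

end IsFunctionField

end Fermat.Agent.S27.Lef
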