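import Fermat.Agent.S27.Lef.Defs

/-!
# S27, package F, leaf F0: basic consequences of the base-change predicate `IsBC`  (helper2906)

Pure field theory (no places).  `F = Frac (K ⊗[k] F0)`:
for `t ∈ F0` transcendental over `k`, `t` is transcendental over `K` in `F`, and every
`k(t)`-basis of `F0` is a `K(t)`-basis of `F`; in particular `[F : K(t)] = [F0 : k(t)]`
and `F/K` is a function field.

Leaf statements (all proved, no `sorry`): `IsBC.linearIndependent_left`, `IsBC.transcendental`,
`IsBC.finrank_eq`, `IsBC.finiteDimensional`, `IsBC.isFF_top`.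
Also: `IsBC.linearIndependent_of_finite`, `IsBC.linearIndependent_adjoin`,
`IsBC.span_adjoin_eq_top`, `IsBC.algebraMap_mem_adjoin`.
-/

set_option autoImplicit false
set_option linter.unusedSectionVars false
set_option linter.style.haveILetI false

namespace Fermat.Agent.S27.Lef

open AlgebraicCurve IntermediateField Polynomial
open scoped IntermediateField.algebraAdjoinAdjoin

variable {k K F0 F : Type*} [Field k] [Field K] [Field F0] [Field F]
  [Algebra k K] [Algebra k F0] [Algebra K F] [Algebra F0 F] [Algebra k F]
  [IsScalarTower k K F] [IsScalarTower k F0 F]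

namespace IsBC

/-- Linear disjointness for families indexed by an arbitrary finite type. -/
theorem linearIndependent_of_finite (h : IsBC k K F0 F) {ι : Type*} [Finite ι] (f : ι → F0)
    (hf : LinearIndependent k f) : LinearIndependent K (fun i => algebraMap F0 F (f i)) := by
  obtain ⟨n, ⟨e⟩⟩ := Finite.exists_equiv_fin ι
  have h1 : LinearIndependent k (f ∘ e.symm) := (linearIndependent_equiv e.symm).mpr hf
  have h2 := h.linearIndependent n (f ∘ e.symm) h1
  exact (linearIndependent_equiv e.symm).mp h2

/-- Symmetric form of linear disjointness: a `k`-linearly independent family of `K` is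
linearly independent over `F0` in `F`. -/
theorem linearIndependent_left (h : IsBC k K F0 F) (n : ℕ) (c : Fin n → K)
    (hc : LinearIndependent k c) : LinearIndependent F0 (fun i => algebraMap K F (c i)) := by
  classical
  rw [Fintype.linearIndependent_iff]
  intro g hg
  let V : Submodule k F0 := Submodule.span k (Set.range g)
  haveI : Module.Finite k V := FiniteDimensional.span_of_finite k (Set.finite_range g)
  let b := Module.finBasis k V
  have hb : LinearIndependent k (fun j => (b j : F0)) :=
    b.linearIndependent.map' V.subtype (Submodule.ker_subtype V)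
  have hbK := h.linearIndependent _ _ hb
  let lam : Fin n → Fin (Module.finrank k V) → k :=
    fun i j => b.repr ⟨g i, Submodule.subset_span ⟨i, rfl⟩⟩ j
  have hg_i : ∀ i, g i = ∑ j, lam i j • (b j : F0) := by
    intro i
    have h1 := b.sum_repr ⟨g i, Submodule.subset_span ⟨i, rfl⟩⟩
    have h2 := congrArg (Subtype.val) h1
    simp only [Submodule.coe_sum, Submodule.coe_smul] at h2
    exact h2.symm
  have key : ∑ j, (∑ i, lam i j • c i) • algebraMap F0 F (b j : F0) = 0 := by
    rw [← hg]
    simp only [Algebra.smul_def, map_sum, map_mul, Finset.sum_mul]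
    rw [Finset.sum_comm]
    refine Finset.sum_congr rfl fun i _ => ?_
    rw [hg_i i]
    simp only [Algebra.smul_def, map_sum, map_mul, Finset.sum_mul]
    refine Finset.sum_congr rfl fun j _ => ?_
    rw [← IsScalarTower.algebraMap_apply k K F, ← IsScalarTower.algebraMap_apply k F0 F]
    ring
  have hz := Fintype.linearIndependent_iff.mp hbK _ key
  have hlam : ∀ j i, lam i j = 0 := fun j => Fintype.linearIndependent_iff.mp hc _ (hz j)
  intro i
  rw [hg_i i]
  simp [hlam]

/-- Powers of a transcendental element are linearly independent. -/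
theorem linearIndependent_pow_of_transcendental {R A : Type*} [Field R] [Field A] [Algebra R A]
    {t : A} (ht : Transcendental R t) (N : ℕ) :
    LinearIndependent R (fun m : Fin N => t ^ (m : ℕ)) := by
  classical
  rw [Fintype.linearIndependent_iff]
  intro g hg
  set q : R[X] := ∑ m : Fin N, monomial (m : ℕ) (g m) with hq
  have hq0 : aeval t q = 0 := by
    rw [hq, map_sum, ← hg]
    refine Finset.sum_congr rfl fun m _ => ?_
    rw [aeval_monomial, Algebra.smul_def]
  have hq1 : q = 0 := (transcendental_iff.mp ht) q hq0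
  intro m
  have h1 : q.coeff (m : ℕ) = g m := by
    rw [hq, finsetSum_coeff]
    simp only [coeff_monomial]
    rw [Finset.sum_eq_single m]
    · simp
    · intro b _ hb
      rw [if_neg]
      exact fun hbm => hb (Fin.ext hbm)
    · intro hm
      exact absurd (Finset.mem_univ m) hm
  rw [← h1, hq1, coeff_zero]

/-- A transcendental element of `F0/k` stays transcendental over `K`. -/
theorem transcendental (h : IsBC k K F0 F) {t : F0} (ht : Transcendental k t) :
    Transcendental K (algebraMap F0 F t) := by
  rw [transcendental_iff]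
  intro p hp
  have hind := h.linearIndependent _ _ (linearIndependent_pow_of_transcendental ht (p.natDegree + 1))
  rw [Fintype.linearIndependent_iff] at hind
  have h1 := hind (fun m => p.coeff (m : ℕ)) (by
    rw [← hp, aeval_eq_sum_range, Finset.sum_range]
    refine Finset.sum_congr rfl fun m _ => ?_
    rw [map_pow])
  ext m
  rw [coeff_zero]
  by_cases hm : m < p.natDegree + 1
  · exact h1 ⟨m, hm⟩
  · exact coeff_eq_zero_of_natDegree_lt (by omega)

/-- The family `t^m f_i` is `k`-linearly independent when the `f_i` are `k(t)`-independent. -/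
theorem linearIndependent_pow_mul {t : F0} (ht : Transcendental k t) {n : ℕ} (f : Fin n → F0)
    (hf : LinearIndependent k⟮t⟯ f) (N : ℕ) :
    LinearIndependent k (fun p : Fin n × Fin N => t ^ (p.2 : ℕ) * f p.1) := by
  classical
  rw [Fintype.linearIndependent_iff]
  intro lam hlam
  rw [Fintype.sum_prod_type] at hlam
  -- the coefficients `a i = ∑ m, lam (i, m) t^m ∈ k(t)`
  have hmem : ∀ i, (∑ m : Fin N, lam (i, m) • t ^ (m : ℕ)) ∈ k⟮t⟯ := by
    intro i
    refine sum_mem fun m _ => ?_
    rw [Algebra.smul_def]
    exact mul_mem (IntermediateField.algebraMap_mem _ _) (pow_mem (mem_adjoin_simple_self k t) _)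
  have h1 : ∑ i, (⟨_, hmem i⟩ : k⟮t⟯) • f i = 0 := by
    rw [← hlam]
    refine Finset.sum_congr rfl fun i _ => ?_
    rw [IntermediateField.smul_def, smul_eq_mul, Finset.sum_mul]
    refine Finset.sum_congr rfl fun m _ => ?_
    rw [smul_mul_assoc]
  have h2 := Fintype.linearIndependent_iff.mp hf _ h1
  have h3 : ∀ i, ∑ m : Fin N, lam (i, m) • t ^ (m : ℕ) = 0 := fun i => by
    have := congrArg (Subtype.val) (h2 i)
    simpa using this
  rintro ⟨i, m⟩
  exact Fintype.linearIndependent_iff.mp (linearIndependent_pow_of_transcendental ht N) _ (h3 i) m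

/-- Polynomial form of the base change of linear independence. -/
theorem eq_zero_of_sum_aeval_mul (h : IsBC k K F0 F) {t : F0} (ht : Transcendental k t) {n : ℕ}
    (f : Fin n → F0) (hf : LinearIndependent k⟮t⟯ f) (P : Fin n → K[X])
    (hP : ∑ i, aeval (algebraMap F0 F t) (P i) * algebraMap F0 F (f i) = 0) : ∀ i, P i = 0 := by
  classical
  set N : ℕ := (Finset.univ.sup fun i => (P i).natDegree) + 1 with hN
  have hdeg : ∀ i, (P i).natDegree < N := fun i => by
    have : (P i).natDegree ≤ Finset.univ.sup fun i => (P i).natDegree :=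
      Finset.le_sup (f := fun i => (P i).natDegree) (Finset.mem_univ i)
    omega
  have hK := h.linearIndependent_of_finite _ (linearIndependent_pow_mul ht f hf N)
  rw [Fintype.linearIndependent_iff] at hK
  have h1 := hK (fun p => (P p.1).coeff (p.2 : ℕ)) (by
    rw [Fintype.sum_prod_type, ← hP]
    refine Finset.sum_congr rfl fun i _ => ?_
    rw [aeval_eq_sum_range' (hdeg i), Finset.sum_range, Finset.sum_mul]
    refine Finset.sum_congr rfl fun m _ => ?_
    rw [map_mul, map_pow, smul_mul_assoc])
  intro i
  ext m
  rw [coeff_zero]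
  by_cases hm : m < N
  · exact h1 (i, ⟨m, hm⟩)
  · exact coeff_eq_zero_of_natDegree_lt (by have := hdeg i; omega)

/-- Base change of linear independence over the rational function fields. -/
theorem linearIndependent_adjoin (h : IsBC k K F0 F) {t : F0} (ht : Transcendental k t) {n : ℕ}
    (f : Fin n → F0) (hf : LinearIndependent k⟮t⟯ f) :
    LinearIndependent K⟮algebraMap F0 F t⟯ (fun i => algebraMap F0 F (f i)) := by
  classical
  set T := algebraMap F0 F t with hT
  have hTtr : Transcendental K T := h.transcendental ht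
  rw [Fintype.linearIndependent_iff]
  intro a ha
  -- write the coefficients as fractions of polynomials in `T`
  have hfrac : ∀ i, ∃ r s : K[X], s ≠ 0 ∧ ((a i : K⟮T⟯) : F) = aeval T r / aeval T s := by
    intro i
    obtain ⟨r, s, hrs⟩ := (mem_adjoin_simple_iff K ((a i : K⟮T⟯) : F)).mp (a i).2
    by_cases hs : s = 0
    · exact ⟨0, 1, one_ne_zero, by rw [hrs, hs]; simp⟩
    · exact ⟨r, s, hs, hrs⟩
  choose r s hs hrs using hfrac
  have hsT : ∀ i, aeval T (s i) ≠ 0 := fun i h0 => hs i ((transcendental_iff.mp hTtr) _ h0)
  -- clear denominators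
  set S : K[X] := ∏ i, s i with hS
  have hST : aeval T S ≠ 0 := by
    rw [hS, map_prod]
    exact Finset.prod_ne_zero_iff.mpr fun i _ => hsT i
  have hP : ∑ i, aeval T (r i * ∏ j ∈ Finset.univ.erase i, s j) * algebraMap F0 F (f i) = 0 := by
    have h1 : ∀ i, aeval T (r i * ∏ j ∈ Finset.univ.erase i, s j)
        = ((a i : K⟮T⟯) : F) * aeval T S := by
      intro i
      rw [hrs i, hS, ← Finset.mul_prod_erase Finset.univ s (Finset.mem_univ i), map_mul, map_mul]
      field_simp [hsT i]
    have h2 : ∑ i, ((a i : K⟮T⟯) : F) * algebraMap F0 F (f i) = 0 := by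
      rw [← ha]
      exact Finset.sum_congr rfl fun i _ => by rw [IntermediateField.smul_def, smul_eq_mul]
    calc ∑ i, aeval T (r i * ∏ j ∈ Finset.univ.erase i, s j) * algebraMap F0 F (f i)
        = aeval T S * ∑ i, ((a i : K⟮T⟯) : F) * algebraMap F0 F (f i) := by
          rw [Finset.mul_sum]
          exact Finset.sum_congr rfl fun i _ => by rw [h1 i]; ring
      _ = 0 := by rw [h2, mul_zero]
  have h3 := h.eq_zero_of_sum_aeval_mul ht f hf _ hP
  intro i
  have h4 : r i = 0 := by
    have := h3 i
    rcases mul_eq_zero.mp this with h5 | h5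
    · exact h5
    · exact absurd h5 (Finset.prod_ne_zero_iff.mpr fun j _ => hs j)
  apply Subtype.ext
  rw [hrs i, h4]
  simp

omit [Algebra F0 F] [Algebra k F] [IsScalarTower k K F] [IsScalarTower k F0 F] in
/-- The image of `k(t)` lies in `K(T)`. -/
theorem algebraMap_mem_adjoin [Algebra F0 F] [Algebra k F] [IsScalarTower k K F]
    [IsScalarTower k F0 F] {t : F0} {a : F0} (ha : a ∈ k⟮t⟯) :
    algebraMap F0 F a ∈ K⟮algebraMap F0 F t⟯ := by
  obtain ⟨r, s, rfl⟩ := (mem_adjoin_simple_iff k a).mp ha
  rw [mem_adjoin_simple_iff]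
  refine ⟨r.map (algebraMap k K), s.map (algebraMap k K), ?_⟩
  rw [map_div₀, aeval_map_algebraMap, aeval_map_algebraMap, aeval_algebraMap_apply,
    aeval_algebraMap_apply]

/-- Base change of a spanning family over the rational function fields. -/
theorem span_adjoin_eq_top (h : IsBC k K F0 F) {t : F0} {n : ℕ}
    (b : Fin n → F0) (hb : ⊤ ≤ Submodule.span k⟮t⟯ (Set.range b)) :
    ⊤ ≤ Submodule.span K⟮algebraMap F0 F t⟯ (Set.range fun i => algebraMap F0 F (b i)) := by
  classical
  set T := algebraMap F0 F t with hT
  set M : Submodule K⟮T⟯ F := Submodule.span K⟮T⟯ (Set.range fun i => algebraMap F0 F (b i)) with hM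
  -- Step 2: the image of `F0` lies in `M`
  have h2 : ∀ f0 : F0, algebraMap F0 F f0 ∈ M := by
    intro f0
    have hf0 : f0 ∈ Submodule.span k⟮t⟯ (Set.range b) := hb trivial
    obtain ⟨c, rfl⟩ := (Submodule.mem_span_range_iff_exists_fun k⟮t⟯).mp hf0
    rw [map_sum]
    refine Submodule.sum_mem _ fun i _ => ?_
    rw [IntermediateField.smul_def, smul_eq_mul, map_mul]
    have h1 : algebraMap F0 F (c i : F0) * algebraMap F0 F (b i)
        = (⟨algebraMap F0 F (c i : F0), algebraMap_mem_adjoin (K := K) (F := F) (c i).2⟩ : K⟮T⟯) •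
          algebraMap F0 F (b i) := by
      rw [IntermediateField.smul_def, smul_eq_mul]
    rw [h1]
    exact Submodule.smul_mem _ _ (Submodule.subset_span ⟨i, rfl⟩)
  -- Step 3: `M` is stable under multiplication by `F0`
  have h3 : ∀ f0 : F0, ∀ m ∈ M, algebraMap F0 F f0 * m ∈ M := by
    intro f0 m hm
    induction hm using Submodule.span_induction with
    | mem x hx =>
      obtain ⟨i, rfl⟩ := hx
      rw [← map_mul]
      exact h2 _
    | zero => rw [mul_zero]; exact M.zero_mem
    | add x y _ _ hx hy => rw [mul_add]; exact M.add_mem hx hy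
    | smul a x _ hx =>
      rw [mul_smul_comm]
      exact M.smul_mem a hx
  -- Step 4: `M` is stable under multiplication by `K`
  have h4 : ∀ c : K, ∀ m ∈ M, algebraMap K F c * m ∈ M := by
    intro c m hm
    have : algebraMap K F c * m = (algebraMap K K⟮T⟯ c) • m := by
      rw [IntermediateField.smul_def, smul_eq_mul]
      rfl
    rw [this]
    exact M.smul_mem _ hm
  -- Step 5: the multiplier algebra of `M`
  let S : Subalgebra K F :=
    { carrier := {z | ∀ m ∈ M, z * m ∈ M}
      mul_mem' := fun {x y} hx hy m hm => by rw [mul_assoc]; exact hx _ (hy m hm)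
      one_mem' := fun m hm => by rwa [one_mul]
      add_mem' := fun {x y} hx hy m hm => by rw [add_mul]; exact M.add_mem (hx m hm) (hy m hm)
      zero_mem' := fun m _ => by rw [zero_mul]; exact M.zero_mem
      algebraMap_mem' := fun c m hm => h4 c m hm }
  have h5 : Algebra.adjoin K (Set.range (algebraMap F0 F)) ≤ S := by
    refine Algebra.adjoin_le ?_
    rintro _ ⟨f0, rfl⟩
    exact fun m hm => h3 f0 m hm
  -- Step 6: `1 ∈ M`, so the adjoined algebra lies in `M`
  have h1M : (1 : F) ∈ M := by
    have := h2 1
    rwa [map_one] at this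
  have h6 : ∀ r ∈ Algebra.adjoin K (Set.range (algebraMap F0 F)), r ∈ M := by
    intro r hr
    have := h5 hr 1 h1M
    rwa [mul_one] at this
  -- Step 7: inverses
  haveI : FiniteDimensional K⟮T⟯ M := FiniteDimensional.span_of_finite K⟮T⟯ (Set.finite_range _)
  have h7 : ∀ r ∈ Algebra.adjoin K (Set.range (algebraMap F0 F)), r ≠ 0 → r⁻¹ ∈ M := by
    intro r hr hr0
    have hst : ∀ m ∈ M, (LinearMap.mulLeft K⟮T⟯ r) m ∈ M := fun m hm => h5 hr m hm
    let φ : M →ₗ[K⟮T⟯] M := (LinearMap.mulLeft K⟮T⟯ r).restrict hst
    have hinj : Function.Injective φ := by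
      intro x y hxy
      have h8 := congrArg Subtype.val hxy
      simp only [φ, LinearMap.coe_restrict_apply, LinearMap.mulLeft_apply] at h8
      exact Subtype.ext (mul_left_cancel₀ hr0 h8)
    obtain ⟨m, hm⟩ := LinearMap.surjective_of_injective hinj ⟨1, h1M⟩
    have h8 := congrArg Subtype.val hm
    simp only [φ, LinearMap.coe_restrict_apply, LinearMap.mulLeft_apply] at h8
    have h9 : r⁻¹ = (m : F) := inv_eq_of_mul_eq_one_right h8
    rw [h9]
    exact m.2
  -- Step 8: every element of `F` is a quotient
  intro z _
  have hz : z ∈ IntermediateField.adjoin K (Set.range (algebraMap F0 F)) := by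
    rw [h.adjoin_eq_top]; trivial
  obtain ⟨r, hr, s, hs, rfl⟩ := mem_adjoin_iff_div.mp hz
  by_cases hs0 : s = 0
  · rw [hs0, div_zero]; exact M.zero_mem
  · rw [div_eq_mul_inv]
    exact h5 hr _ (h7 s hs hs0)

/-- Degrees over a rational function subfield are preserved by base change. -/
theorem finrank_eq (h : IsBC k K F0 F) {t : F0} (ht : Transcendental k t) :
    Module.finrank K⟮algebraMap F0 F t⟯ F = Module.finrank k⟮t⟯ F0 := by
  by_cases hfin : FiniteDimensional k⟮t⟯ F0
  · let b := Module.finBasis k⟮t⟯ F0
    have hli := h.linearIndependent_adjoin ht b b.linearIndependent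
    have hsp := h.span_adjoin_eq_top (t := t) b b.span_eq.ge
    rw [Module.finrank_eq_card_basis (Module.Basis.mk hli hsp), Fintype.card_fin]
  · rw [Module.finrank_of_not_finite hfin]
    apply Module.finrank_of_not_finite
    intro hfin'
    have hrank : ((Module.finrank K⟮algebraMap F0 F t⟯ F + 1 : ℕ) : Cardinal)
        ≤ Module.rank k⟮t⟯ F0 := by
      by_contra hlt
      rw [not_le] at hlt
      exact hfin (Module.rank_lt_aleph0_iff.mp (hlt.trans Cardinal.natCast_lt_aleph0))
    obtain ⟨f, hf⟩ := exists_linearIndependent_of_le_rank hrank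
    have hli := h.linearIndependent_adjoin ht f hf
    have := hli.fintype_card_le_finrank
    rw [Fintype.card_fin] at this
    omega

/-- `F` is finite over `K(t)` for `t ∈ F0` transcendental over `k` (if `F0` is finite over `k(t)`). -/
theorem finiteDimensional (h : IsBC k K F0 F) {t : F0} (ht : Transcendental k t)
    [FiniteDimensional k⟮t⟯ F0] : FiniteDimensional K⟮algebraMap F0 F t⟯ F := by
  let b := Module.finBasis k⟮t⟯ F0
  have hli := h.linearIndependent_adjoin ht b b.linearIndependent
  have hsp := h.span_adjoin_eq_top (t := t) b b.span_eq.ge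
  exact Module.Finite.of_basis (Module.Basis.mk hli hsp)

/-- The base change of a function field is a function field. -/
theorem isFF_top (h : IsBC k K F0 F) : IsFunctionField K F := by
  obtain ⟨x, hx, hfin⟩ := h.isFF
  exact ⟨algebraMap F0 F x, h.transcendental hx, h.finiteDimensional hx⟩

end IsBC

end Fermat.Agent.S27.Lef
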