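import Fermat.Agent.S27.Lef.GaloisExt
import Fermat.Agent.S27.DescentFrac3314

/-!
# S27, package F: the group of compatible automorphisms of `F = F0 K`  (helper6614)

Auxiliary file for leaves F2c (`GaloisFixed.lean`) and F3b (`LSpaceDim.lean`) of helper2906's
F skeleton.  `compatGroup K F0 F` is the group `Γ` of pairs `(τ, σ)`, `τ` a ring automorphism of
`F`, `σ` a ring automorphism of `K`, with `τ|K = σ` and `τ|F0 = id`; it acts on `K` and on `F`,
which puts us in the setting of helper3314's abstract semilinear descent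
(`Fermat/Agent/S27/DescentFrac3314.lean`, verbatim from origin/helper3314).
-/

set_option autoImplicit false

namespace Fermat.Agent.S27.Lef

open AlgebraicCurve IntermediateField

variable {k K F0 F : Type*} [Field k] [Field K] [Field F0] [Field F]
  [Algebra k K] [Algebra k F0] [Algebra K F] [Algebra F0 F] [Algebra k F]
  [IsScalarTower k K F] [IsScalarTower k F0 F]

namespace LSpaceDimAux6614

section group

variable (K F0 F)

/-- The group `Γ` of compatible pairs `(τ, σ)`: `τ` a ring automorphism of `F` restricting to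
the automorphism `σ` of `K` and fixing `F0` pointwise. -/
def compatGroup : Subgroup (RingAut F × RingAut K) where
  carrier := {p | (∀ c : K, p.1 (algebraMap K F c) = algebraMap K F (p.2 c)) ∧
    ∀ a : F0, p.1 (algebraMap F0 F a) = algebraMap F0 F a}
  mul_mem' := by
    rintro p q ⟨hp1, hp2⟩ ⟨hq1, hq2⟩
    refine ⟨fun c => ?_, fun a => ?_⟩
    · show p.1 (q.1 (algebraMap K F c)) = algebraMap K F (p.2 (q.2 c))
      rw [hq1, hp1]
    · show p.1 (q.1 (algebraMap F0 F a)) = algebraMap F0 F a
      rw [hq2, hp2]
  one_mem' := ⟨fun _ => rfl, fun _ => rfl⟩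
  inv_mem' := by
    rintro p ⟨hp1, hp2⟩
    refine ⟨fun c => ?_, fun a => ?_⟩
    · show p.1.symm (algebraMap K F c) = algebraMap K F (p.2.symm c)
      rw [RingEquiv.symm_apply_eq, hp1, RingEquiv.apply_symm_apply]
    · show p.1.symm (algebraMap F0 F a) = algebraMap F0 F a
      rw [RingEquiv.symm_apply_eq, hp2]

noncomputable instance instActK : MulSemiringAction (compatGroup K F0 F) K :=
  MulSemiringAction.compHom K ((MonoidHom.snd (RingAut F) (RingAut K)).comp
    (compatGroup K F0 F).subtype)

noncomputable instance instActF : MulSemiringAction (compatGroup K F0 F) F :=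
  MulSemiringAction.compHom F ((MonoidHom.fst (RingAut F) (RingAut K)).comp
    (compatGroup K F0 F).subtype)

variable {K F0 F}

theorem smulK_def (g : compatGroup K F0 F) (c : K) :
    g • c = (g : RingAut F × RingAut K).2 c := rfl

theorem smulF_def (g : compatGroup K F0 F) (f : F) :
    g • f = (g : RingAut F × RingAut K).1 f := rfl

theorem isSemiAut_fst (g : compatGroup K F0 F) :
    IsSemiAut K F0 (g : RingAut F × RingAut K).1 := by
  obtain ⟨p, hp1, hp2⟩ := g
  refine ⟨fun c => ⟨p.2 c, hp1 c⟩, fun c => ⟨p.2.symm c, ?_⟩, hp2⟩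
  show p.1.symm (algebraMap K F c) = algebraMap K F (p.2.symm c)
  rw [RingEquiv.symm_apply_eq, hp1, RingEquiv.apply_symm_apply]

theorem smul_smul_eq (g : compatGroup K F0 F) (c : K) (f : F) :
    g • (c • f) = (g • c) • (g • f) := by
  obtain ⟨p, hp1, hp2⟩ := g
  show p.1 (c • f) = (p.2 c) • p.1 f
  rw [Algebra.smul_def, Algebra.smul_def, map_mul, hp1]

theorem smul_algebraMap_eq (g : compatGroup K F0 F) (a : F0) :
    g • algebraMap F0 F a = algebraMap F0 F a :=
  g.2.2 a

end group

theorem isSemiAut_symm {τ : F ≃+* F} (hτ : IsSemiAut K F0 τ) : IsSemiAut K F0 τ.symm :=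
  ⟨hτ.symm_map_K, by simpa using hτ.map_K, fun f => by rw [RingEquiv.symm_apply_eq, hτ.map_F0]⟩

/-- `F` is the field of fractions of `K · F0`. -/
theorem exists_denominator (hadj : IntermediateField.adjoin K (Set.range (algebraMap F0 F)) = ⊤)
    (f : F) : ∃ b ∈ Submodule.span K (Set.range (algebraMap F0 F)),
      b ≠ 0 ∧ b * f ∈ Submodule.span K (Set.range (algebraMap F0 F)) := by
  have hspan : ∀ r ∈ Algebra.adjoin K (Set.range (algebraMap F0 F)),
      r ∈ Submodule.span K (Set.range (algebraMap F0 F)) := by
    intro r hr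
    have h1 : r ∈ Subalgebra.toSubmodule (Algebra.adjoin K (Set.range (algebraMap F0 F))) := hr
    rw [Algebra.adjoin_eq_span] at h1
    have h2 : Submonoid.closure (Set.range (algebraMap F0 F))
        = MonoidHom.mrange ((algebraMap F0 F : F0 →+* F) : F0 →* F) := by
      have h3 : Set.range (algebraMap F0 F)
          = ((MonoidHom.mrange ((algebraMap F0 F : F0 →+* F) : F0 →* F) : Submonoid F) : Set F) := by
        ext x
        simp
      rw [h3, Submonoid.closure_eq]
    rw [h2] at h1
    have h4 : ((MonoidHom.mrange ((algebraMap F0 F : F0 →+* F) : F0 →* F) : Submonoid F) : Set F)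
        = Set.range (algebraMap F0 F) := by
      ext x
      simp
    rw [h4] at h1
    exact h1
  have hf : f ∈ IntermediateField.adjoin K (Set.range (algebraMap F0 F)) := by
    rw [hadj]
    trivial
  obtain ⟨r, hr, s, hs, rfl⟩ := IntermediateField.mem_adjoin_iff_div.mp hf
  by_cases hs0 : s = 0
  · refine ⟨1, Submodule.subset_span ⟨1, map_one _⟩, one_ne_zero, ?_⟩
    rw [hs0, div_zero, mul_zero]
    exact Submodule.zero_mem _
  · refine ⟨s, hspan s hs, hs0, ?_⟩
    rw [mul_div_cancel₀ r hs0]
    exact hspan r hr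

set_option linter.unusedSectionVars false in
/-- Linear disjointness for arbitrary index types. -/
theorem linearIndependent_of_isBC (h : IsBC k K F0 F) {ι : Type*} (v : ι → F0)
    (hv : LinearIndependent k v) : LinearIndependent K (fun i => algebraMap F0 F (v i)) := by
  classical
  rw [linearIndependent_iff_finset_linearIndependent]
  intro s
  have h1 : LinearIndependent k (v ∘ (Subtype.val : s → ι) ∘ s.equivFin.symm) :=
    hv.comp _ (Subtype.val_injective.comp s.equivFin.symm.injective)
  have h2 := h.linearIndependent s.card _ h1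
  have h3 := h2.comp s.equivFin s.equivFin.injective
  convert h3 using 1
  funext i
  simp

omit [Algebra k F0] [Algebra k F] [IsScalarTower k K F] [IsScalarTower k F0 F] in
/-- `K^Γ = k`, given that every `k`-automorphism of `K` extends (leaf F2b) and `K^{Aut(K/k)} = k`
(leaf F2a). -/
theorem fixed_mem_range (hext : ∀ σ : K ≃ₐ[k] K, ∃ τ : F ≃+* F, IsSemiAut K F0 τ ∧
      ∀ c : K, τ (algebraMap K F c) = algebraMap K F (σ c))
    (hfix : ∀ c : K, (∀ σ : K ≃ₐ[k] K, σ c = c) → c ∈ Set.range (algebraMap k K))
    (c : K) (hc : ∀ g : compatGroup K F0 F, g • c = c) : c ∈ (algebraMap k K).range := by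
  refine hfix c fun σ => ?_
  obtain ⟨τ, hτ1, hτ2⟩ := hext σ
  have hg : ((τ, σ.toRingEquiv) : RingAut F × RingAut K) ∈ compatGroup K F0 F :=
    ⟨fun c => hτ2 c, hτ1.map_F0⟩
  exact hc ⟨_, hg⟩

/-- Every semilinear automorphism (`IsSemiAut`) is the first component of an element of `Γ`. -/
theorem exists_compat_of_isSemiAut {τ : F ≃+* F} (hτ : IsSemiAut K F0 τ) :
    ∃ g : compatGroup K F0 F, ∀ f : F, g • f = τ f := by
  classical
  choose s hs using hτ.map_K
  choose s' hs' using hτ.symm_map_K
  have hinj : Function.Injective (algebraMap K F) := (algebraMap K F).injective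
  have h1 : ∀ c, s' (s c) = c := fun c => by
    apply hinj
    rw [← hs', ← hs, RingEquiv.symm_apply_apply]
  have h2 : ∀ c, s (s' c) = c := fun c => by
    apply hinj
    rw [← hs, ← hs', RingEquiv.apply_symm_apply]
  let σ : K ≃+* K :=
    { toFun := s
      invFun := s'
      left_inv := h1
      right_inv := h2
      map_mul' := fun a b => by
        apply hinj
        rw [← hs, map_mul, map_mul, map_mul, hs, hs]
      map_add' := fun a b => by
        apply hinj
        rw [← hs, map_add, map_add, map_add, hs, hs] }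
  have hg : ((τ, σ) : RingAut F × RingAut K) ∈ compatGroup K F0 F :=
    ⟨fun c => hs c, hτ.map_F0⟩
  exact ⟨⟨_, hg⟩, fun f => rfl⟩

end LSpaceDimAux6614

end Fermat.Agent.S27.Lef
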