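import Fermat.Agent.S27.Lef.Top

/-!
# S27, package F (Lefschetz transfer): shared definitions  (helper2906)

Interface file of package F of the route `origin/helper9506:notes/S27_route_helper9506.md`.
Keep the statements stable.

* `IsFunctionField K F` (from `Lef/Top.lean`, helper8666, verbatim): `F/K` is a function field
                   in one variable (`∃ x`, `x` transcendental over `K`, `F` finite over `K(x)`).
* `IsBC k K F0 F`: the function field `F/K` is the base change of the function field `F0/k`
                   ("`F = F0 K`"): `F0/k` is a function field, `K` and `F0` are linearly disjoint
                   over `k` inside `F`, and `F` is generated by `K` and `F0` as a field.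
* `LiesOver Q P` : the place `Q` of `F/K` restricts to the place `P` of `F0/k`
                   (with ramification index one).
-/

set_option autoImplicit false

namespace Fermat.Agent.S27.Lef

open AlgebraicCurve IntermediateField

section BaseChange

variable (k K F0 F : Type*) [Field k] [Field K] [Field F0] [Field F]
  [Algebra k K] [Algebra k F0] [Algebra K F] [Algebra F0 F] [Algebra k F]
  [IsScalarTower k K F] [IsScalarTower k F0 F]

/-- The function field `F/K` is the base change of the function field `F0/k`. -/
structure IsBC : Prop where
  /-- `F0/k` is a function field in one variable. -/
  isFF : IsFunctionField k F0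
  /-- `K` and `F0` are linearly disjoint over `k` inside `F`. -/
  linearIndependent : ∀ (n : ℕ) (f : Fin n → F0), LinearIndependent k f →
    LinearIndependent K (fun i => algebraMap F0 F (f i))
  /-- `F` is generated, as a field, by `K` and `F0`. -/
  adjoin_eq_top : IntermediateField.adjoin K (Set.range (algebraMap F0 F)) = ⊤

variable {k K F0 F}

/-- The place `Q` of `F/K` lies over the place `P` of `F0/k` (unramified restriction). -/
def LiesOver (Q : Place K F) (P : Place k F0) : Prop :=
  ∀ f : F0, Q.ord (algebraMap F0 F f) = P.ord f

end BaseChange

end Fermat.Agent.S27.Lef
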