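import Fermat.Agent.S27.Lef.LSpace
import Fermat.Agent.S27.L3h7634

/-!
# S27, package F, leaf F4: Galois descent of torsion classes

LEAF: if `Pic0(F)[n]` is finite, every `n`-torsion class of `F = F0 K` comes from `F0`.

Proof (helper8474): glue on top of the abstract descent core of helper7634
(`Fermat/Agent/S27/L3h7634.lean`, `exists_rational_rep_of_torsion`), with
* `G` := the semilinear automorphisms of `F/K` fixing `F0` pointwise,
* `Rat` := the range of `IsBC.extPlace`.
Inputs (statements of the other leaves): F0 (`IsBC.transcendental`, `IsBC.finiteDimensional`),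
F1 (`exists_unique_liesOver`, `liesOver_or_trivial`), F2a (`exists_algEquiv_apply_eq_add_one`),
F2b (`IsBC.exists_semiAut`), A-facts (`place_deg_eq_one`, `finiteDimensional_riemannRochSpace`,
`riemannRoch_eq`, `exists_divisor`, `degree_eq_zero_of_principal`, `exists_finset_zeros`).
-/

set_option autoImplicit false

namespace Fermat.Agent.S27.Lef

open AlgebraicCurve IntermediateField

namespace F4h8474

section general

variable {K F : Type*} [Field K] [Field F] [Algebra K F]

/-- A function field over an algebraically closed field of characteristic zero has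
infinitely many places. -/
theorem infinite_place [IsAlgClosed K] [CharZero K] (hF : IsFunctionField K F) :
    Infinite (Place K F) := by
  obtain ⟨x, hx, hfin⟩ := id hF
  have key : ∀ c : K, ∃ v : Place K F, 0 < v.ord (x - algebraMap K F c) := by
    intro c
    have hs : Transcendental K (x - algebraMap K F c) :=
      Fermat.Agent.S24.A564.transcendental_sub_const hx c
    obtain ⟨S, hS, hsum⟩ := hF.exists_finset_zeros hs
    haveI := hF.finiteDimensional hs
    have hpos : (0 : ℤ) < (Module.finrank K⟮x - algebraMap K F c⟯ F : ℤ) := by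
      exact_mod_cast Module.finrank_pos
    rw [← hsum] at hpos
    have hne : S.Nonempty := by
      by_contra hS0
      rw [Finset.not_nonempty_iff_eq_empty] at hS0
      rw [hS0, Finset.sum_empty] at hpos
      exact lt_irrefl _ hpos
    obtain ⟨v, hv⟩ := hne
    exact ⟨v, (hS v).mp hv⟩
  choose w hw using key
  have hinj : Function.Injective w := by
    intro c c' hcc
    have h1 := hw c
    have h2 := hw c'
    rw [hcc] at h1
    exact Fermat.Agent.S24.A564.const_unique (w c') x h1 h2
  haveI : Infinite K := Infinite.of_injective (Nat.cast : ℕ → K) Nat.cast_injective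
  exact Infinite.of_injective w hinj

variable (F0 : Type*) [Field F0] [Algebra F0 F]

/-- The semilinear automorphisms of `F/K` fixing `F0` pointwise. -/
def fixF0 : Subgroup (SemilinearAut K F) where
  carrier := {g | ∀ f : F0, SemilinearAut.toRingAut g (algebraMap F0 F f) = algebraMap F0 F f}
  one_mem' := fun _ => rfl
  mul_mem' := by
    intro a b ha hb f
    show SemilinearAut.toRingAut (a * b) (algebraMap F0 F f) = algebraMap F0 F f
    rw [SemilinearAut.toRingAut_mul, RingAut.mul_apply, hb f, ha f]
  inv_mem' := by
    intro a ha f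
    show SemilinearAut.toRingAut a⁻¹ (algebraMap F0 F f) = algebraMap F0 F f
    rw [SemilinearAut.toRingAut_inv, RingEquiv.symm_apply_eq]
    exact (ha f).symm

theorem mem_fixF0 {g : SemilinearAut K F} :
    g ∈ fixF0 (K := K) (F := F) F0 ↔
      ∀ f : F0, SemilinearAut.toRingAut g (algebraMap F0 F f) = algebraMap F0 F f :=
  Iff.rfl

end general

variable {k K F0 F : Type*} [Field k] [Field K] [Field F0] [Field F]
  [Algebra k K] [Algebra k F0] [Algebra K F] [Algebra F0 F] [Algebra k F]
  [IsScalarTower k K F] [IsScalarTower k F0 F]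
  [IsAlgClosed k] [IsAlgClosed K] [CharZero k]

/-- Rational places are fixed by the semilinear automorphisms fixing `F0`. -/
theorem smul_extPlace (h : IsBC k K F0 F) {g : SemilinearAut K F}
    (hg : g ∈ fixF0 (K := K) (F := F) F0) (P : Place k F0) :
    g • h.extPlace P = h.extPlace P := by
  apply h.eq_extPlace_of_liesOver
  intro f
  have h1 := SemilinearAut.ord_smul g (h.extPlace P) (algebraMap F0 F f)
  rw [SemilinearAut.smul_def, hg f] at h1
  rw [h1, h.extPlace_ord]

/-- A place of `F` with finite orbit under the automorphisms fixing `F0` is rational. -/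
theorem mem_range_extPlace_of_finite_orbit (h : IsBC k K F0 F) (P : Place K F)
    (hfin : (Set.range fun g : fixF0 (K := K) (F := F) F0 =>
      (g : SemilinearAut K F) • P).Finite) :
    P ∈ Set.range h.extPlace := by
  haveI : CharZero K := charZero_of_injective_algebraMap (algebraMap k K).injective
  by_contra hP
  have htriv : ∀ f : F0, P.ord (algebraMap F0 F f) = 0 := h.ord_eq_zero_of_notMem_range hP
  obtain ⟨x, hx, hfinx⟩ := h.isFF
  haveI := hfinx
  have hX : Transcendental K (algebraMap F0 F x) := h.transcendental hx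
  haveI : FiniteDimensional K⟮algebraMap F0 F x⟯ F := h.finiteDimensional hx
  obtain ⟨c, hc⟩ := Fermat.Agent.S24.A564.exists_const_ord_pos (algebraMap F0 F x) hX P
    (by rw [htriv x])
  -- the value `c` of `x` at `P` is not in `k`
  have hck : c ∉ Set.range (algebraMap k K) := by
    rintro ⟨c0, rfl⟩
    have e : algebraMap F0 F x - algebraMap K F (algebraMap k K c0)
        = algebraMap F0 F (x - algebraMap k F0 c0) := by
      rw [map_sub, ← IsScalarTower.algebraMap_apply k K F, ← IsScalarTower.algebraMap_apply k F0 F]
    rw [e, htriv] at hc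
    exact lt_irrefl _ hc
  obtain ⟨σ, hσ⟩ := exists_algEquiv_apply_eq_add_one k K c hck
  obtain ⟨τ, hτ, hτσ⟩ := h.exists_semiAut σ
  -- the semilinear automorphism `(τ, σ)`
  let g : SemilinearAut K F := ⟨(τ, (σ : K ≃+* K)), fun a => hτσ a⟩
  have hgG : g ∈ fixF0 (K := K) (F := F) F0 := fun f => hτ.map_F0 f
  have hgK : ∀ a : K, SemilinearAut.toRingAut g (algebraMap K F a) = algebraMap K F (σ a) :=
    fun a => hτσ a
  have hgpow : ∀ j : ℕ, SemilinearAut.toRingAut (g ^ j)
      (algebraMap F0 F x - algebraMap K F c) = algebraMap F0 F x - algebraMap K F (c + j) := by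
    intro j
    induction j with
    | zero => simp
    | succ j ih =>
      rw [pow_succ', SemilinearAut.toRingAut_mul, RingAut.mul_apply, ih, map_sub, hgG x, hgK,
        map_add, hσ, map_natCast]
      congr 2
      push_cast
      ring
  have hord : ∀ j : ℕ, 0 < ((g ^ j) • P).ord (algebraMap F0 F x - algebraMap K F (c + j)) := by
    intro j
    have h1 := SemilinearAut.ord_smul (g ^ j) P (algebraMap F0 F x - algebraMap K F c)
    rw [SemilinearAut.smul_def, hgpow j] at h1
    rw [h1]
    exact hc
  have hinj : Function.Injective (fun j : ℕ => (g ^ j) • P) := by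
    intro i j hij
    have hi := hord i
    have hj := hord j
    have hij' : (g ^ i) • P = (g ^ j) • P := hij
    rw [hij'] at hi
    have := Fermat.Agent.S24.A564.const_unique ((g ^ j) • P) (algebraMap F0 F x) hi hj
    exact_mod_cast add_left_cancel this
  have hinf : (Set.range fun g : fixF0 (K := K) (F := F) F0 =>
      (g : SemilinearAut K F) • P).Infinite :=
    Set.infinite_of_injective_forall_mem hinj
      (fun j => ⟨⟨g ^ j, Subgroup.pow_mem _ hgG j⟩, rfl⟩)
  exact hinf hfin

end F4h8474

variable {k K F0 F : Type*} [Field k] [Field K] [Field F0] [Field F]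
  [Algebra k K] [Algebra k F0] [Algebra K F] [Algebra F0 F] [Algebra k F]
  [IsScalarTower k K F] [IsScalarTower k F0 F]
  [IsAlgClosed k] [IsAlgClosed K] [CharZero k]

/-- LEAF F4. -/
theorem IsBC.exists_extPic0_eq_of_finite (h : IsBC k K F0 F) (n : ℕ)
    [Finite (Pic0.torsion K F n)] {z : Pic0 K F} (hz : z ∈ Pic0.torsion K F n) :
    ∃ z0 : Pic0 k F0, h.extPic0 z0 = z := by
  classical
  haveI : CharZero K := charZero_of_injective_algebraMap (algebraMap k K).injective
  have hF : IsFunctionField K F := h.isFF_top
  haveI : HasPrincipalDivisors K F := ⟨fun f hf => by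
    obtain ⟨D, hD⟩ := hF.exists_divisor f
    exact ⟨D, hD, hF.degree_eq_zero_of_principal ⟨f, hf, hD⟩⟩⟩
  haveI : Infinite (Place k F0) := F4h8474.infinite_place h.isFF
  have hRiem : ∀ D : Divisor K F,
      Divisor.degree D + 1 - (genusFF K F : ℤ)
        ≤ (Module.finrank K (riemannRochSpace D) : ℤ) := by
    intro D
    have := hF.riemannRoch_eq D
    have hi : (0 : ℤ) ≤ (Module.finrank K (H1 D) : ℤ) := Int.natCast_nonneg _
    linarith
  obtain ⟨D, hDz, hDsupp⟩ := L3h7634.exists_rational_rep_of_torsion
    (fun v => hF.place_deg_eq_one v) (fun D => hF.finiteDimensional_riemannRochSpace D)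
    (genusFF K F : ℤ) hRiem (F4h8474.fixF0 (K := K) (F := F) F0) (Set.range h.extPlace)
    (Set.infinite_range_of_injective h.extPlace_injective)
    (by
      rintro g hg _ ⟨P, rfl⟩
      exact F4h8474.smul_extPlace h hg P)
    (fun P hP => F4h8474.mem_range_extPlace_of_finite_orbit h P hP)
    n inferInstance z hz
  obtain ⟨D0, hD0⟩ := h.exists_extDiv_eq (D : Divisor K F)
    (fun Q hQ => h.mem_range_extPlace_iff.mp (hDsupp Q hQ))
  have hdeg0 : D0 ∈ Divisor.degZero (K := k) (F := F0) := by
    rw [Divisor.mem_degZero, ← h.degree_extDiv, hD0]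
    exact D.2
  refine ⟨Pic0.mk ⟨D0, hdeg0⟩, ?_⟩
  rw [h.extPic0_mk, ← hDz]
  congr 1
  exact Subtype.ext hD0

end Fermat.Agent.S27.Lef
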