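import Mathlib
import Fermat.Prelude.Def_AlgebraicCurve_DivisorClassGroup

/-!
# S27 package F, leaf G3 (helper1646): transport of a place along a ring automorphism of `F`
which maps `K` onto `K`

`exists_place_of_ringEquiv`: if `τ : F ≃+* F` maps the image of `K` onto itself, then for every
place `P` of `F/K` there is a place `P'` with `P'.ord (τ f) = P.ord f` (valuation ring
`τ '' O_P`, realised as the comap of `O_P` along `τ.symm`).  Generic (Mathlib + Prelude only).
-/

set_option autoImplicit false

namespace Fermat.Agent.S27.Lef.H1646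

open AlgebraicCurve

variable {K F : Type*} [Field K] [Field F] [Algebra K F]

/-- The valuation subring `τ '' A` as the comap of `A` along `τ.symm`. -/
noncomputable def mapValSubring (τ : F ≃+* F) (A : ValuationSubring F) : ValuationSubring F :=
  A.comap (τ.symm : F →+* F)

theorem mem_mapValSubring (τ : F ≃+* F) (A : ValuationSubring F) (x : F) :
    x ∈ mapValSubring τ A ↔ τ.symm x ∈ A := by
  unfold mapValSubring
  rw [ValuationSubring.mem_comap]
  rfl

/-- The ring isomorphism `A ≃+* τ '' A` induced by `τ`. -/
noncomputable def mapValSubringEquiv (τ : F ≃+* F) (A : ValuationSubring F) :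
    A ≃+* mapValSubring τ A where
  toFun x := ⟨τ x, by rw [mem_mapValSubring, RingEquiv.symm_apply_apply]; exact x.2⟩
  invFun y := ⟨τ.symm y, (mem_mapValSubring τ A y).mp y.2⟩
  left_inv x := by ext; simp
  right_inv y := by ext; simp
  map_mul' x y := by ext; simp
  map_add' x y := by ext; simp

@[simp]
theorem coe_mapValSubringEquiv (τ : F ≃+* F) (A : ValuationSubring F) (x : A) :
    ((mapValSubringEquiv τ A x : mapValSubring τ A) : F) = τ x := rfl

/-- Transport of a place along `τ`. -/
noncomputable def mapPlace (τ : F ≃+* F)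
    (hτ : ∀ c : K, ∃ c' : K, τ (algebraMap K F c') = algebraMap K F c) (P : Place K F) :
    Place K F where
  toValuationSubring := mapValSubring τ P.toValuationSubring
  algebraMap_mem' := fun a => by
    obtain ⟨c', hc'⟩ := hτ a
    rw [mem_mapValSubring, ← hc', RingEquiv.symm_apply_apply]
    exact P.algebraMap_mem' c'
  ne_top' := fun htop => P.ne_top' <| by
    refine SetLike.ext fun x => ⟨fun _ => ValuationSubring.mem_top x, fun _ => ?_⟩
    have h1 : τ x ∈ mapValSubring τ P.toValuationSubring := by
      rw [htop]
      exact ValuationSubring.mem_top _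
    rw [mem_mapValSubring, RingEquiv.symm_apply_apply] at h1
    exact h1
  isPrincipalIdealRing' :=
    IsPrincipalIdealRing.of_surjective
      (mapValSubringEquiv τ P.toValuationSubring : _ ≃+* _)
      (mapValSubringEquiv τ P.toValuationSubring).surjective

theorem mapPlace_toValuationSubring (τ : F ≃+* F)
    (hτ : ∀ c : K, ∃ c' : K, τ (algebraMap K F c') = algebraMap K F c) (P : Place K F) :
    (mapPlace τ hτ P).toValuationSubring = mapValSubring τ P.toValuationSubring := rfl

theorem ord_mapPlace (τ : F ≃+* F)
    (hτ : ∀ c : K, ∃ c' : K, τ (algebraMap K F c') = algebraMap K F c) (P : Place K F) (f : F) :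
    (mapPlace τ hτ P).ord (τ f) = P.ord f := by
  rcases eq_or_ne f 0 with rfl | hf
  · simp
  obtain ⟨π, hπ⟩ := IsDiscreteValuationRing.exists_irreducible P.toValuationSubring
  obtain ⟨u, hu⟩ := P.exists_unit_mul_zpow hf hπ
  set n := P.ord f with hn
  set e : P.toValuationSubring ≃+* (mapPlace τ hτ P).toValuationSubring :=
    mapValSubringEquiv τ P.toValuationSubring with he
  have hπ' : Irreducible (e π) := (MulEquiv.irreducible_iff e).mpr hπ
  have hu' : IsUnit (e (u : P.toValuationSubring)) := u.isUnit.map e
  have hcoeu : ((hu'.unit : (mapPlace τ hτ P).toValuationSubring) : F)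
      = τ ((u : P.toValuationSubring) : F) := by
    rw [IsUnit.unit_spec]
    rfl
  have hcoeπ : ((e π : (mapPlace τ hτ P).toValuationSubring) : F) = τ (π : F) := rfl
  have key : τ f = ((hu'.unit : (mapPlace τ hτ P).toValuationSubring) : F)
      * (((e π : (mapPlace τ hτ P).toValuationSubring) : F) ^ n) := by
    rw [hcoeu, hcoeπ, hu, map_mul, map_zpow₀]
  rw [key, (mapPlace τ hτ P).ord_unit_smul_zpow hu'.unit hπ' n]

/-- A ring automorphism of `F` mapping `K` onto `K` transports places. -/
theorem exists_place_of_ringEquiv (τ : F ≃+* F)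
    (hτ : ∀ c : K, ∃ c' : K, τ (algebraMap K F c') = algebraMap K F c) (P : Place K F) :
    ∃ P' : Place K F, ∀ f : F, P'.ord (τ f) = P.ord f :=
  ⟨mapPlace τ hτ P, ord_mapPlace τ hτ P⟩

end Fermat.Agent.S27.Lef.H1646
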