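import Mathlib
import Fermat.Agent.S27.FieldAut

/-!
# S27, package F, leaf F2a: automorphisms of `K/k`  (pure field theory, Mathlib only)

LEAF: `exists_algEquiv_apply_eq_add_one` : for `c ∈ K ∖ k` (`k ⊆ K` algebraically closed) there
is `σ ∈ Aut(K/k)` with `σ c = c + 1`.
(Proof idea: `c` is transcendental over `k`; extend `{c}` to a transcendence basis `B`; the
automorphism `c ↦ c + 1` of `k(B)` extends to its algebraic closure `K`,
`IsAlgClosure.equivOfEquiv`.)
-/

set_option autoImplicit false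

namespace Fermat.Agent.S27.Lef

/-- LEAF F2a. For `c ∈ K` not in `k` there is a `k`-automorphism of `K` with `σ c = c + 1`. -/
theorem exists_algEquiv_apply_eq_add_one (k K : Type*) [Field k] [Field K] [Algebra k K]
    [IsAlgClosed k] [IsAlgClosed K] (c : K) (hc : c ∉ Set.range (algebraMap k K)) :
    ∃ σ : K ≃ₐ[k] K, σ c = c + 1 := by
  have hc' : c ∉ (algebraMap k K).range := fun h => hc (by simpa using h)
  obtain ⟨σ, hσ⟩ := Fermat.Agent.S27.FieldAut.exists_algEquiv_apply_eq_add
    (Fermat.Agent.S27.FieldAut.transcendental_of_not_mem_range hc') (1 : k)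
  exact ⟨σ, by rw [hσ, map_one]⟩

/-- `K^{Aut(K/k)} = k`. -/
theorem mem_range_algebraMap_of_forall_algEquiv (k K : Type*) [Field k] [Field K] [Algebra k K]
    [IsAlgClosed k] [IsAlgClosed K] (c : K) (hc : ∀ σ : K ≃ₐ[k] K, σ c = c) :
    c ∈ Set.range (algebraMap k K) := by
  by_contra hcon
  obtain ⟨σ, hσ⟩ := exists_algEquiv_apply_eq_add_one k K c hcon
  rw [hc σ] at hσ
  simp at hσ

end Fermat.Agent.S27.Lef
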