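import Fermat.Agent.S27.Lef.Defs

/-!
# S27 package F, leaf F2b (helper1646): extension of `σ ∈ Aut(K/k)` to `F = F0 K`

`exists_ringEquiv_of_isBC`: for a base change `IsBC k K F0 F`, every `σ : K ≃ₐ[k] K` extends to a
ring automorphism `τ` of `F` with `τ|K = σ`, `τ|F0 = id`.  Proof: `K ⊗[k] F0 → F` is injective
(linear disjointness) with fraction field `F`, and `σ ⊗ id` extends to the fraction field.
-/

set_option autoImplicit false

namespace Fermat.Agent.S27.Lef.H1646

open TensorProduct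

variable {k K F0 F : Type*} [Field k] [Field K] [Field F0] [Field F]
  [Algebra k K] [Algebra k F0] [Algebra K F] [Algebra F0 F] [Algebra k F]
  [IsScalarTower k K F] [IsScalarTower k F0 F]

/-- The multiplication map `K ⊗[k] F0 → F`, as a `K`-algebra hom. -/
noncomputable def bcMul : K ⊗[k] F0 →ₐ[K] F :=
  Algebra.TensorProduct.productLeftAlgHom (Algebra.ofId K F) (IsScalarTower.toAlgHom k F0 F)

theorem bcMul_tmul (c : K) (f : F0) :
    bcMul (k := k) (F := F) (c ⊗ₜ[k] f) = algebraMap K F c * algebraMap F0 F f := rfl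

theorem bcMul_injective (h : IsBC k K F0 F) :
    Function.Injective (bcMul : K ⊗[k] F0 →ₐ[K] F) := by
  classical
  set b := Module.Free.chooseBasis k F0 with hb
  set B := Algebra.TensorProduct.basis K b with hB
  have hli : LinearIndependent K (fun i => (bcMul : K ⊗[k] F0 →ₐ[K] F) (B i)) := by
    have h1 : (fun i => (bcMul : K ⊗[k] F0 →ₐ[K] F) (B i)) = fun i => algebraMap F0 F (b i) := by
      funext i
      rw [hB, Algebra.TensorProduct.basis_apply, bcMul_tmul, map_one, one_mul]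
    rw [h1, linearIndependent_iff_finset_linearIndependent]
    intro s
    have h2 : LinearIndependent k (fun j : Fin s.card => b (s.equivFin.symm j)) :=
      b.linearIndependent.comp _ (Subtype.val_injective.comp s.equivFin.symm.injective)
    have h3 := h.linearIndependent s.card _ h2
    have h4 := h3.comp s.equivFin s.equivFin.injective
    convert h4 using 1
    funext i
    simp
  rw [injective_iff_map_eq_zero]
  intro t ht
  have h5 : t = Finsupp.linearCombination K B (B.repr t) := (B.linearCombination_repr t).symm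
  have h6 : (bcMul : K ⊗[k] F0 →ₐ[K] F) t
      = Finsupp.linearCombination K (fun i => (bcMul : K ⊗[k] F0 →ₐ[K] F) (B i)) (B.repr t) := by
    conv_lhs => rw [h5]
    exact Finsupp.apply_linearCombination K (bcMul : K ⊗[k] F0 →ₐ[K] F).toLinearMap B (B.repr t)
  rw [h6] at ht
  have h7 := linearIndependent_iff.mp hli _ ht
  exact B.repr.map_eq_zero_iff.mp h7

theorem bcMul_surj (h : IsBC k K F0 F) (z : F) :
    ∃ x y : K ⊗[k] F0, z = (bcMul : K ⊗[k] F0 →ₐ[K] F) x / (bcMul : K ⊗[k] F0 →ₐ[K] F) y := by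
  have hz : z ∈ IntermediateField.adjoin K (Set.range (algebraMap F0 F)) := by
    rw [h.adjoin_eq_top]; trivial
  obtain ⟨r, hr, s, hs, rfl⟩ := IntermediateField.mem_adjoin_iff_div.mp hz
  have hle : Algebra.adjoin K (Set.range (algebraMap F0 F))
      ≤ (bcMul : K ⊗[k] F0 →ₐ[K] F).range := by
    refine Algebra.adjoin_le ?_
    rintro _ ⟨f, rfl⟩
    exact ⟨1 ⊗ₜ[k] f, by
      show (bcMul : K ⊗[k] F0 →ₐ[K] F) (1 ⊗ₜ[k] f) = _
      rw [bcMul_tmul, map_one, one_mul]⟩
  obtain ⟨x, rfl⟩ := hle hr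
  obtain ⟨y, rfl⟩ := hle hs
  exact ⟨x, y, rfl⟩

/-- Every `k`-automorphism of `K` extends to `F = F0 K`, fixing `F0`. -/
theorem exists_ringEquiv_of_isBC (h : IsBC k K F0 F) (σ : K ≃ₐ[k] K) :
    ∃ τ : F ≃+* F, (∀ c : K, τ (algebraMap K F c) = algebraMap K F (σ c)) ∧
      (∀ c : K, τ.symm (algebraMap K F c) = algebraMap K F (σ.symm c)) ∧
      (∀ f : F0, τ (algebraMap F0 F f) = algebraMap F0 F f) := by
  let alg : Algebra (K ⊗[k] F0) F := (bcMul : K ⊗[k] F0 →ₐ[K] F).toRingHom.toAlgebra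
  have halg : ∀ t : K ⊗[k] F0, algebraMap (K ⊗[k] F0) F t = (bcMul : K ⊗[k] F0 →ₐ[K] F) t :=
    fun _ => rfl
  have : FaithfulSMul (K ⊗[k] F0) F :=
    (faithfulSMul_iff_algebraMap_injective _ _).mpr (bcMul_injective h)
  have : IsFractionRing (K ⊗[k] F0) F := IsFractionRing.of_field _ _ (fun z => by
    obtain ⟨x, y, hxy⟩ := bcMul_surj h z
    exact ⟨x, y, hxy⟩)
  set e : K ⊗[k] F0 ≃+* K ⊗[k] F0 :=
    (Algebra.TensorProduct.congr σ (AlgEquiv.refl : F0 ≃ₐ[k] F0)).toRingEquiv with he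
  have he1 : ∀ (c : K) (f : F0), e (c ⊗ₜ[k] f) = (σ c) ⊗ₜ[k] f := fun c f => by
    simp [he]
  set τ : F ≃+* F := IsFractionRing.ringEquivOfRingEquiv (K := F) (L := F) e with hτ
  have hτ1 : ∀ t : K ⊗[k] F0, τ ((bcMul : K ⊗[k] F0 →ₐ[K] F) t)
      = (bcMul : K ⊗[k] F0 →ₐ[K] F) (e t) := fun t => by
    rw [← halg, ← halg, hτ, IsFractionRing.ringEquivOfRingEquiv_algebraMap]
  have hK : ∀ c : K, τ (algebraMap K F c) = algebraMap K F (σ c) := fun c => by
    have h1 := hτ1 (c ⊗ₜ[k] (1 : F0))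
    rw [he1, bcMul_tmul, bcMul_tmul, map_one, mul_one, mul_one] at h1
    exact h1
  refine ⟨τ, hK, fun c => ?_, fun f => ?_⟩
  · rw [RingEquiv.symm_apply_eq, hK, AlgEquiv.apply_symm_apply]
  · have h1 := hτ1 ((1 : K) ⊗ₜ[k] f)
    simp only [he1, bcMul_tmul, map_one, one_mul] at h1
    exact h1

end Fermat.Agent.S27.Lef.H1646
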