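import Fermat.Agent.S27.Lef.Defs
import Fermat.Agent.S27.Lef.GalPlaceAux1646
import Fermat.Agent.S27.Lef.GaloisExtAux1646

/-!
# S27, package F, leaf F2b: semilinear automorphisms of `F = F0 K`

* `IsSemiAut K F0 τ` : `τ` is a ring automorphism of `F` preserving `K` and fixing `F0` pointwise.
LEAVES:
* `IsBC.exists_semiAut`    : every `σ ∈ Aut(K/k)` extends to such a `τ` (`σ ⊗ id` on
  `K ⊗[k] F0`, then fraction fields);
* `IsSemiAut.exists_place` : `τ` acts on the places of `F/K`: `ord_{τ Q}(τ f) = ord_Q(f)`.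
-/

set_option autoImplicit false

namespace Fermat.Agent.S27.Lef

open AlgebraicCurve IntermediateField

variable (K F0 : Type*) {F : Type*} [Field K] [Field F0] [Field F]
  [Algebra K F] [Algebra F0 F]

/-- A ring automorphism of `F` which preserves `K` and fixes `F0` pointwise. -/
structure IsSemiAut (τ : F ≃+* F) : Prop where
  map_K : ∀ c : K, ∃ c' : K, τ (algebraMap K F c) = algebraMap K F c'
  symm_map_K : ∀ c : K, ∃ c' : K, τ.symm (algebraMap K F c) = algebraMap K F c'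
  map_F0 : ∀ f : F0, τ (algebraMap F0 F f) = algebraMap F0 F f

variable {K F0}

/-- LEAF F2b-2. Semilinear automorphisms act on places: `Q ↦ τ(Q)`. -/
theorem IsSemiAut.exists_place {τ : F ≃+* F} (hτ : IsSemiAut K F0 τ) (Q : Place K F) :
    ∃ Q' : Place K F, ∀ f : F, Q'.ord (τ f) = Q.ord f :=
  H1646.exists_place_of_ringEquiv τ (fun c => by
    obtain ⟨c', hc'⟩ := hτ.symm_map_K c
    exact ⟨c', by rw [← hc', RingEquiv.apply_symm_apply]⟩) Q

variable {k : Type*} [Field k] [Algebra k K] [Algebra k F0] [Algebra k F]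
  [IsScalarTower k K F] [IsScalarTower k F0 F]

/-- LEAF F2b-1. Every `k`-automorphism of `K` extends to `F = F0 K`, fixing `F0`. -/
theorem IsBC.exists_semiAut (h : IsBC k K F0 F) (σ : K ≃ₐ[k] K) :
    ∃ τ : F ≃+* F, IsSemiAut K F0 τ ∧ ∀ c : K, τ (algebraMap K F c) = algebraMap K F (σ c) := by
  obtain ⟨τ, h1, h2, h3⟩ := H1646.exists_ringEquiv_of_isBC h σ
  exact ⟨τ, ⟨fun c => ⟨σ c, h1 c⟩, fun c => ⟨σ.symm c, h2 c⟩, h3⟩, h1⟩

end Fermat.Agent.S27.Lef
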