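import Fermat.Agent.S27.Lef.GaloisAut
import Fermat.Agent.S27.Lef.GaloisExt
import Fermat.Agent.S27.Lef.BCBasic
import Fermat.Agent.S27.Lef.Compat6614

/-!
# S27, package F, leaf F2c: `F^Γ = F0`

LEAF: an element of `F = F0 K` fixed by all semilinear automorphisms lies in `F0`.
(Proof idea: coordinates w.r.t. a `k(x)`-basis of `F0`, which is a `K(x)`-basis of `F`;
`K(x)^Γ = k(x)` by uniqueness of reduced fractions and `K^Γ = k`.)

Proof (helper6614): the group `Γ = compatGroup K F0 F` of compatible pairs (`Compat6614.lean`)
acts on `K` with `K^Γ = k` (leaves F2a + F2b-1), semilinearly on `F`, fixing `F0`; conclude with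
helper3314's abstract fixed-field theorem `H3314.fixed_mem_range_of_baseChange`
(common fixed denominator in `K · F0`, then coordinates in a `k`-basis of `F0`).
-/

set_option autoImplicit false

namespace Fermat.Agent.S27.Lef

open AlgebraicCurve IntermediateField

variable {k K F0 F : Type*} [Field k] [Field K] [Field F0] [Field F]
  [Algebra k K] [Algebra k F0] [Algebra K F] [Algebra F0 F] [Algebra k F]
  [IsScalarTower k K F] [IsScalarTower k F0 F]

open LSpaceDimAux6614 in
/-- LEAF F2c. `F^Γ = F0`. -/
theorem IsBC.mem_range_of_forall_semiAut [IsAlgClosed k] [IsAlgClosed K] (h : IsBC k K F0 F)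
    (z : F) (hz : ∀ τ : F ≃+* F, IsSemiAut K F0 τ → τ z = z) :
    z ∈ Set.range (algebraMap F0 F) := by
  have hk : ∀ c : K, (∀ g : compatGroup K F0 F, g • c = c) → c ∈ (algebraMap k K).range :=
    fixed_mem_range (k := k) (K := K) (F0 := F0) (F := F) h.exists_semiAut
      (mem_range_algebraMap_of_forall_algEquiv k K)
  have key := Fermat.Agent.S27.H3314.fixed_mem_range_of_baseChange (k := k) (K := K) (F := F)
    (F0 := F0) (G := compatGroup K F0 F) smul_smul_eq smul_algebraMap_eq hk
    (fun ι v hv => linearIndependent_of_isBC h v hv) (exists_denominator h.adjoin_eq_top) z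
    (fun g => hz _ (isSemiAut_fst g))
  exact key

end Fermat.Agent.S27.Lef
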