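import Fermat.Agent.S27.Lef.Places
import Fermat.Agent.S27.Lef.GaloisAut
import Fermat.Agent.S27.Lef.GaloisExt
import Fermat.Agent.S27.Lef.GaloisFixed

/-!
# S27, package F, F2: the Galois action of `Aut(K/k)` on `F = F0 K` (umbrella file)

See `GaloisAut.lean` (F2a), `GaloisExt.lean` (F2b), `GaloisFixed.lean` (F2c).
-/
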