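import Fermat.Agent.S27.Lef.LSpaceDim

/-!
# S27, package F, leaf F3: genus and `Pic0` under base change

Consequences of `IsBC.finrank_riemannRochSpace_extDiv` (leaf F3b) and `AFacts`:
* `IsBC.genusFF_eq`        (F3c): the genus is invariant under base change;
* `IsBC.extPic0_injective` (F3a): `Pic0(F0) → Pic0(F)` is injective.
-/

set_option autoImplicit false

namespace Fermat.Agent.S27.Lef

open AlgebraicCurve IntermediateField

variable {k K F0 F : Type*} [Field k] [Field K] [Field F0] [Field F]
  [Algebra k K] [Algebra k F0] [Algebra K F] [Algebra F0 F] [Algebra k F]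
  [IsScalarTower k K F] [IsScalarTower k F0 F]
  [IsAlgClosed k] [IsAlgClosed K] [CharZero k]

namespace IsBC

/-- F3c. The genus is invariant under base change. -/
theorem genusFF_eq (h : IsBC k K F0 F) : genusFF K F = genusFF k F0 := by
  haveI : CharZero K := charZero_of_injective_algebraMap (algebraMap k K).injective
  obtain ⟨c, hc⟩ := h.isFF_top.exists_forall_finrank_H1_eq_zero
  obtain ⟨c0, hc0⟩ := h.isFF.exists_forall_finrank_H1_eq_zero
  obtain ⟨P⟩ := h.isFF.nonempty_place
  set D0 : Divisor k F0 := Finsupp.single P (max c c0) with hD0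
  have hdeg0 : Divisor.degree D0 = max c c0 := by
    rw [hD0, Divisor.degree_single, h.isFF.place_deg_eq_one]
    simp
  have hdeg : Divisor.degree (h.extDiv D0) = max c c0 := by rw [h.degree_extDiv, hdeg0]
  have h1 := h.isFF_top.riemannRoch_eq (h.extDiv D0)
  have h2 := h.isFF.riemannRoch_eq D0
  rw [hc _ (by rw [hdeg]; exact le_max_left _ _), hdeg, h.finrank_riemannRochSpace_extDiv] at h1
  rw [hc0 _ (by rw [hdeg0]; exact le_max_right _ _), hdeg0] at h2
  have h3 : (genusFF K F : ℤ) = (genusFF k F0 : ℤ) := by linarith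
  exact_mod_cast h3

/-- F3a. `Pic0(F0) → Pic0(F)` is injective. -/
theorem extPic0_injective (h : IsBC k K F0 F) : Function.Injective h.extPic0 := by
  haveI : CharZero K := charZero_of_injective_algebraMap (algebraMap k K).injective
  rw [injective_iff_map_eq_zero]
  intro z0 hz0
  obtain ⟨D0, rfl⟩ := Pic0.mk_surjective z0
  rw [h.extPic0_mk] at hz0
  -- the extension of `D0` is principal
  have hprin : h.extDiv (D0 : Divisor k F0) ∈ Divisor.principal (K := K) (F := F) := by
    have h1 := (QuotientAddGroup.eq_zero_iff _).mp hz0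
    rw [AddSubgroup.mem_addSubgroupOf] at h1
    exact h1
  obtain ⟨f, hf, hD⟩ := hprin
  -- so `L_F(ext D0) ≠ 0`
  have hmem : f⁻¹ ∈ riemannRochSpace (h.extDiv (D0 : Divisor k F0)) := by
    rw [mem_riemannRochSpace_iff]
    intro Q
    right
    rw [Q.ord_inv, hD Q]
  have hfd := h.isFF_top.finiteDimensional_riemannRochSpace (h.extDiv (D0 : Divisor k F0))
  have hpos : 0 < Module.finrank K (riemannRochSpace (h.extDiv (D0 : Divisor k F0))) := by
    haveI : Nontrivial (riemannRochSpace (h.extDiv (D0 : Divisor k F0))) :=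
      ⟨⟨⟨f⁻¹, hmem⟩, 0, by simpa [Subtype.ext_iff] using hf⟩⟩
    exact Module.finrank_pos
  rw [h.finrank_riemannRochSpace_extDiv] at hpos
  -- hence `L_{F0}(D0) ≠ 0`
  haveI := Module.nontrivial_of_finrank_pos hpos
  obtain ⟨⟨g0, hg0mem⟩, hg0⟩ := exists_ne (0 : riemannRochSpace (D0 : Divisor k F0))
  have hg0' : g0 ≠ 0 := fun h0 => hg0 (Subtype.ext h0)
  rw [mem_riemannRochSpace_iff] at hg0mem
  have hord : ∀ P : Place k F0, -(D0 : Divisor k F0) P ≤ P.ord g0 := fun P =>
    (hg0mem P).resolve_left hg0'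
  obtain ⟨E, hE⟩ := h.isFF.exists_divisor g0
  have hEprin : E ∈ Divisor.principal (K := k) (F := F0) := ⟨g0, hg0', hE⟩
  have hzero : (D0 : Divisor k F0) + E = 0 := by
    apply h.isFF.eq_zero_of_nonneg_of_degree_eq_zero
    · intro P
      rw [Finsupp.add_apply, hE P]
      have := hord P
      linarith
    · rw [map_add, h.isFF.degree_eq_zero_of_principal hEprin, add_zero]
      exact D0.2
  have hD0 : (D0 : Divisor k F0) = -E := eq_neg_of_add_eq_zero_left hzero
  show Pic0.mk D0 = 0
  refine (QuotientAddGroup.eq_zero_iff _).mpr ?_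
  rw [AddSubgroup.mem_addSubgroupOf, hD0]
  exact neg_mem hEprin

end IsBC

end Fermat.Agent.S27.Lef
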