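import Fermat.Agent.S27.Lef.Galois
import Fermat.Agent.S27.Lef.Compat6614

/-!
# S27, package F, leaf F3b: Riemann–Roch spaces under base change

LEAF: `IsBC.finrank_riemannRochSpace_extDiv` (`L_F(ext D0) = K ⊗ L_{F0}(D0)`).

Proof (helper6614).  Let `Γ` be the group of pairs `(τ, σ)`, `τ` a ring automorphism of `F`,
`σ` a ring automorphism of `K`, with `τ|K = σ` and `τ|F0 = id`.  Every `k`-automorphism of `K`
occurs as a `σ` (leaf F2b `IsBC.exists_semiAut`), hence `K^Γ = k` (leaf F2a).  `Γ` permutes the
places of `F/K` (leaf F2b `IsSemiAut.exists_place`), fixes the rational places (uniqueness in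
leaf F1a) and preserves the set of non-rational ones, so `W = L_F(ext D0)` is `Γ`-stable; it is
finite-dimensional (A2).  The abstract semilinear descent of helper3314
(`H3314.finrank_comap_eq_of_baseChange`, file `S27/DescentFrac3314.lean`, verbatim) gives
`dim_K W = dim_k (W ∩ F0)`, and `W ∩ F0 = L_{F0}(D0)` because `ord` is preserved at rational
places and trivial on `F0` at the others.
-/

set_option autoImplicit false

namespace Fermat.Agent.S27.Lef

open AlgebraicCurve IntermediateField

variable {k K F0 F : Type*} [Field k] [Field K] [Field F0] [Field F]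
  [Algebra k K] [Algebra k F0] [Algebra K F] [Algebra F0 F] [Algebra k F]
  [IsScalarTower k K F] [IsScalarTower k F0 F]

namespace LSpaceDimAux6614

section places

variable [IsAlgClosed k] [IsAlgClosed K] [CharZero k]

/-- `L_F(ext D0)` is stable under semilinear automorphisms. -/
theorem semiAut_mem_riemannRochSpace (h : IsBC k K F0 F) (D0 : Divisor k F0) {τ : F ≃+* F}
    (hτ : IsSemiAut K F0 τ) {w : F} (hw : w ∈ riemannRochSpace (h.extDiv D0)) :
    τ w ∈ riemannRochSpace (h.extDiv D0) := by
  rw [mem_riemannRochSpace_iff] at hw ⊢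
  intro Q
  have hτs : IsSemiAut K F0 τ.symm := isSemiAut_symm hτ
  obtain ⟨Q', hQ'⟩ := hτs.exists_place Q
  have hord : Q.ord (τ w) = Q'.ord w := by
    rw [← hQ' (τ w), RingEquiv.symm_apply_apply]
  have hordF0 : ∀ f : F0, Q'.ord (algebraMap F0 F f) = Q.ord (algebraMap F0 F f) := by
    intro f
    rw [← hQ' (algebraMap F0 F f), hτs.map_F0]
  have hD : h.extDiv D0 Q = h.extDiv D0 Q' := by
    by_cases hQ : Q ∈ Set.range h.extPlace
    · obtain ⟨P, rfl⟩ := hQ
      have hlo : LiesOver Q' P := fun f => by rw [hordF0 f, h.extPlace_ord]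
      rw [h.eq_extPlace_of_liesOver hlo]
    · have hQ'n : Q' ∉ Set.range h.extPlace := by
        rintro ⟨P, rfl⟩
        apply hQ
        have hlo : LiesOver Q P := fun f => by rw [← hordF0 f, h.extPlace_ord]
        exact ⟨P, (h.eq_extPlace_of_liesOver hlo).symm⟩
      rw [h.extDiv_apply_of_notMem_range D0 hQ, h.extDiv_apply_of_notMem_range D0 hQ'n]
  rcases hw Q' with h0 | hle
  · left
    rw [h0, map_zero]
  · right
    rw [hD, hord]
    exact hle

/-- `L_F(ext D0) ∩ F0 = L_{F0}(D0)`. -/
theorem algebraMap_mem_riemannRochSpace_iff (h : IsBC k K F0 F) (D0 : Divisor k F0) (a : F0) :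
    algebraMap F0 F a ∈ riemannRochSpace (h.extDiv D0) ↔ a ∈ riemannRochSpace D0 := by
  rw [mem_riemannRochSpace_iff, mem_riemannRochSpace_iff]
  constructor
  · intro hQ P
    rcases hQ (h.extPlace P) with h0 | hle
    · left
      exact (map_eq_zero (algebraMap F0 F)).mp h0
    · right
      rwa [h.extDiv_apply_extPlace, h.extPlace_ord] at hle
  · intro hP Q
    by_cases hQ : Q ∈ Set.range h.extPlace
    · obtain ⟨P, rfl⟩ := hQ
      rcases hP P with h0 | hle
      · left
        rw [h0, map_zero]
      · right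
        rwa [h.extDiv_apply_extPlace, h.extPlace_ord]
    · right
      rw [h.extDiv_apply_of_notMem_range D0 hQ, h.ord_eq_zero_of_notMem_range hQ, neg_zero]

end places

end LSpaceDimAux6614

variable [IsAlgClosed k] [IsAlgClosed K] [CharZero k]

namespace IsBC

open LSpaceDimAux6614 in
/-- LEAF F3b. `dim_K L_F(ext D0) = dim_k L_{F0}(D0)`. -/
theorem finrank_riemannRochSpace_extDiv (h : IsBC k K F0 F) (D0 : Divisor k F0) :
    Module.finrank K (riemannRochSpace (h.extDiv D0)) = Module.finrank k (riemannRochSpace D0) := by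
  have hchar : CharZero K := charZero_of_injective_algebraMap (algebraMap k K).injective
  have hfin : FiniteDimensional K (riemannRochSpace (h.extDiv D0)) :=
    h.isFF_top.finiteDimensional_riemannRochSpace _
  have hfg : (riemannRochSpace (h.extDiv D0)).FG :=
    (Submodule.fg_iff_finiteDimensional _).mpr hfin
  have hk : ∀ c : K, (∀ g : compatGroup K F0 F, g • c = c) → c ∈ (algebraMap k K).range := by
    intro c hc
    have hmem := mem_range_algebraMap_of_forall_algEquiv k K c (fun σ => by
      obtain ⟨τ, hτ1, hτ2⟩ := h.exists_semiAut σ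
      have hg : ((τ, σ.toRingEquiv) : RingAut F × RingAut K) ∈ compatGroup K F0 F :=
        ⟨fun c => hτ2 c, hτ1.map_F0⟩
      exact hc ⟨_, hg⟩)
    exact hmem
  have hW : ∀ (g : compatGroup K F0 F) (w : F), w ∈ riemannRochSpace (h.extDiv D0) →
      g • w ∈ riemannRochSpace (h.extDiv D0) := by
    intro g w hw
    exact semiAut_mem_riemannRochSpace h D0 (isSemiAut_fst g) hw
  have key := Fermat.Agent.S27.H3314.finrank_comap_eq_of_baseChange (k := k) (K := K) (F := F)
    (F0 := F0) (G := compatGroup K F0 F) smul_smul_eq smul_algebraMap_eq hk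
    (fun ι v hv => linearIndependent_of_isBC h v hv) (exists_denominator h.adjoin_eq_top)
    (riemannRochSpace (h.extDiv D0)) hfg hW
  rw [← key]
  have hcomap : ((riemannRochSpace (h.extDiv D0)).restrictScalars k).comap
      (IsScalarTower.toAlgHom k F0 F).toLinearMap = riemannRochSpace D0 := by
    ext a
    exact algebraMap_mem_riemannRochSpace_iff h D0 a
  rw [hcomap]

end IsBC

end Fermat.Agent.S27.Lef
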