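import Fermat.Agent.S27.Lef.Defs
import Fermat.Agent.S24.A564.RHAssembly

/-!
# S27, package F, leaf F5a (models): the base-change predicate for `k(x, y) ⊆ F`  (helper7646)

Core of the model construction.  `F/K` a field extension, `x` transcendental over `K`,
`1, y, …, y^(d-1)` a `K(x)`-basis of `F` (in polynomial form `hind`/`hgen`), and `k ⊆ K` a subfield
over which the relation `y^d = ∑ (p_j(x)/q(x)) y^j` is defined.  Then `F1 := k(x, y)` is a function
field over `k`, `K` and `F1` are linearly disjoint over `k`, and `F = K · F1`: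
`isBC_adjoin_pair : IsBC k K k⟮x, y⟯ F`.
-/

set_option autoImplicit false

namespace Fermat.Agent.S27.Lef.M7646

open AlgebraicCurve Polynomial IntermediateField

section Core

variable {k K F : Type*} [Field k] [Field K] [Field F] [Algebra k K] [Algebra K F] [Algebra k F]
  [IsScalarTower k K F]

/-- `K` and `k[x]` are linearly disjoint over `k` when `x` is transcendental over `K`. -/
theorem poly_eq_zero_of_sum_eq_zero {x : F} (hx : Transcendental K x) {m : ℕ} (b : Fin m → K)
    (hb : LinearIndependent k b) (p : Fin m → k[X])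
    (h : ∑ s, algebraMap K F (b s) * aeval x (p s) = 0) : ∀ s, p s = 0 := by
  have hP : (∑ s, C (b s) * (p s).map (algebraMap k K) : K[X]) = 0 := by
    apply (transcendental_iff.mp hx)
    rw [map_sum, ← h]
    refine Finset.sum_congr rfl fun s _ => ?_
    rw [map_mul, aeval_C, aeval_map_algebraMap]
  have hcoeff : ∀ i s, (p s).coeff i = 0 := by
    intro i
    have h1 : ∑ s, (p s).coeff i • b s = 0 := by
      have h2 := congrArg (fun P : K[X] => P.coeff i) hP
      simp only [finsetSum_coeff, coeff_C_mul, coeff_map, coeff_zero] at h2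
      rw [← h2]
      refine Finset.sum_congr rfl fun s _ => ?_
      rw [Algebra.smul_def, mul_comm]
    exact Fintype.linearIndependent_iff.mp hb _ h1
  intro s
  ext i
  rw [hcoeff i s, coeff_zero]

/-- Common denominators for finitely many elements of `k(x)`. -/
theorem exists_common_denominator {x : F} (hx : Transcendental k x) {m : ℕ} (l : Fin m → F)
    (hl : ∀ s, l s ∈ k⟮x⟯) :
    ∃ (p : Fin m → k[X]) (q : k[X]), q ≠ 0 ∧ ∀ s, l s * aeval x q = aeval x (p s) := by
  classical
  have hx0 : ∀ q : k[X], q ≠ 0 → aeval x q ≠ 0 := fun q hq h0 => hq (transcendental_iff.mp hx q h0)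
  have h1 : ∀ s, ∃ (r q : k[X]), q ≠ 0 ∧ l s * aeval x q = aeval x r := by
    intro s
    obtain ⟨r, q, hrq⟩ := (mem_adjoin_simple_iff k (l s)).mp (hl s)
    by_cases hq : q = 0
    · refine ⟨0, 1, one_ne_zero, ?_⟩
      rw [hrq, hq, map_zero, div_zero, zero_mul]
    · refine ⟨r, q, hq, ?_⟩
      rw [hrq, div_mul_cancel₀ _ (hx0 q hq)]
  choose r q hq hrq using h1
  refine ⟨fun s => r s * ∏ s' ∈ Finset.univ.erase s, q s', ∏ s, q s,
    Finset.prod_ne_zero_iff.mpr fun s _ => hq s, fun s => ?_⟩
  rw [← Finset.mul_prod_erase Finset.univ q (Finset.mem_univ s), map_mul, map_mul, ← mul_assoc,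
    hrq s]

/-- `K` and `k(x)` are linearly disjoint over `k` when `x` is transcendental over `K`. -/
theorem eq_zero_of_sum_eq_zero {x : F} (hx : Transcendental K x) {m : ℕ} (b : Fin m → K)
    (hb : LinearIndependent k b) (l : Fin m → F) (hl : ∀ s, l s ∈ k⟮x⟯)
    (h : ∑ s, algebraMap K F (b s) * l s = 0) : ∀ s, l s = 0 := by
  have hxk : Transcendental k x := hx.restrictScalars (algebraMap k K).injective
  obtain ⟨p, q, hq, hpq⟩ := exists_common_denominator hxk l hl
  have hq0 : aeval x q ≠ 0 := fun h0 => hq (transcendental_iff.mp hxk q h0)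
  have h1 : ∑ s, algebraMap K F (b s) * aeval x (p s) = 0 := by
    have h2 : ∑ s, algebraMap K F (b s) * aeval x (p s)
        = (∑ s, algebraMap K F (b s) * l s) * aeval x q := by
      rw [Finset.sum_mul]
      refine Finset.sum_congr rfl fun s _ => ?_
      rw [← hpq s, mul_assoc]
    rw [h2, h, zero_mul]
  have hp := poly_eq_zero_of_sum_eq_zero hx b hb p h1
  intro s
  have h3 := hpq s
  rw [hp s, map_zero] at h3
  exact (mul_eq_zero.mp h3).resolve_right hq0

end Core


section SpanW

variable (k : Type*) {F : Type*} [Field k] [Field F] [Algebra k F]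

/-- The `k(x)`-span of `1, y, …, y^(d-1)`. -/
def W (x y : F) (d : ℕ) : Submodule k⟮x⟯ F :=
  Submodule.span k⟮x⟯ (Set.range fun j : Fin d => y ^ (j : ℕ))

variable {k}
variable {x y : F} {d : ℕ}

theorem pow_mem_W_of_lt {j : ℕ} (hj : j < d) : y ^ j ∈ W k x y d :=
  Submodule.subset_span ⟨⟨j, hj⟩, rfl⟩

theorem smul_mem_W_of_mem {l w : F} (hl : l ∈ k⟮x⟯) (hw : w ∈ W k x y d) : l * w ∈ W k x y d := by
  have := (W k x y d).smul_mem (⟨l, hl⟩ : k⟮x⟯) hw
  exact this

theorem aeval_div_mem (p q : k[X]) : aeval x p / aeval x q ∈ k⟮x⟯ :=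
  (mem_adjoin_simple_iff k _).mpr ⟨p, q, rfl⟩

theorem aeval_mem (p : k[X]) : aeval x p ∈ k⟮x⟯ := by
  have := aeval_div_mem (x := x) p 1
  rwa [map_one, div_one] at this

theorem pow_d_mem_W (hx : Transcendental k x)
    (hrel : ∃ (P0 : Fin d → k[X]) (q0 : k[X]), q0 ≠ 0 ∧
      y ^ d * aeval x q0 = ∑ j : Fin d, aeval x (P0 j) * y ^ (j : ℕ)) :
    y ^ d ∈ W k x y d := by
  obtain ⟨P0, q0, hq0, h⟩ := hrel
  have hq : aeval x q0 ≠ 0 := fun h0 => hq0 (transcendental_iff.mp hx q0 h0)
  have h1 : y ^ d = ∑ j : Fin d, (aeval x (P0 j) / aeval x q0) * y ^ (j : ℕ) := by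
    rw [(eq_div_iff hq).mpr h, Finset.sum_div]
    refine Finset.sum_congr rfl fun j _ => ?_
    rw [div_mul_eq_mul_div]
  rw [h1]
  exact Submodule.sum_mem _ fun j _ => smul_mem_W_of_mem (aeval_div_mem _ _) (pow_mem_W_of_lt j.2)

theorem y_mul_mem_W (hyd : y ^ d ∈ W k x y d) {w : F} (hw : w ∈ W k x y d) :
    y * w ∈ W k x y d := by
  induction hw using Submodule.span_induction with
  | mem w hw =>
    obtain ⟨j, rfl⟩ := hw
    rw [← pow_succ']
    rcases Nat.lt_or_ge ((j : ℕ) + 1) d with hj | hj
    · exact pow_mem_W_of_lt hj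
    · have : (j : ℕ) + 1 = d := le_antisymm j.2 hj
      rw [this]
      exact hyd
  | zero => rw [mul_zero]; exact Submodule.zero_mem _
  | add u v _ _ hu hv => rw [mul_add]; exact Submodule.add_mem _ hu hv
  | smul l u _ hu =>
    rw [mul_smul_comm]
    exact Submodule.smul_mem _ l hu

theorem pow_mul_mem_W (hyd : y ^ d ∈ W k x y d) (m : ℕ) {w : F} (hw : w ∈ W k x y d) :
    y ^ m * w ∈ W k x y d := by
  induction m with
  | zero => rwa [pow_zero, one_mul]
  | succ m ih =>
    rw [pow_succ', mul_assoc]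
    exact y_mul_mem_W hyd ih

theorem one_mem_W (hd : 0 < d) : (1 : F) ∈ W k x y d := by
  have := pow_mem_W_of_lt (k := k) (x := x) (y := y) hd
  rwa [pow_zero] at this

theorem pow_mem_W (hd : 0 < d) (hyd : y ^ d ∈ W k x y d) (m : ℕ) : y ^ m ∈ W k x y d := by
  have := pow_mul_mem_W hyd m (one_mem_W hd)
  rwa [mul_one] at this

theorem mul_mem_W (hyd : y ^ d ∈ W k x y d) {w w' : F} (hw : w ∈ W k x y d)
    (hw' : w' ∈ W k x y d) : w * w' ∈ W k x y d := by
  induction hw using Submodule.span_induction with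
  | mem w hw =>
    obtain ⟨j, rfl⟩ := hw
    exact pow_mul_mem_W hyd _ hw'
  | zero => rw [zero_mul]; exact Submodule.zero_mem _
  | add u v _ _ hu hv => rw [add_mul]; exact Submodule.add_mem _ hu hv
  | smul l u _ hu =>
    rw [smul_mul_assoc]
    exact Submodule.smul_mem _ l hu

instance finiteDimensional_W : FiniteDimensional k⟮x⟯ (W k x y d) :=
  FiniteDimensional.span_of_finite k⟮x⟯ (Set.finite_range _)

theorem inv_mem_W (hd : 0 < d) (hyd : y ^ d ∈ W k x y d) {w : F} (hw : w ∈ W k x y d) :
    w⁻¹ ∈ W k x y d := by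
  rcases eq_or_ne w 0 with rfl | hw0
  · rw [inv_zero]; exact Submodule.zero_mem _
  let φ : W k x y d →ₗ[k⟮x⟯] W k x y d :=
    { toFun := fun u => ⟨w * u, mul_mem_W hyd hw u.2⟩
      map_add' := fun u v => by ext; simp [mul_add]
      map_smul' := fun l u => by ext; simp }
  have hinj : Function.Injective φ := by
    intro u v huv
    have h1 : w * (u : F) = w * (v : F) := congrArg Subtype.val huv
    exact Subtype.ext (mul_left_cancel₀ hw0 h1)
  obtain ⟨u, hu⟩ := LinearMap.surjective_of_injective hinj ⟨1, one_mem_W hd⟩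
  have h1 : w * (u : F) = 1 := congrArg Subtype.val hu
  rw [← eq_inv_of_mul_eq_one_right h1]
  exact u.2

theorem adjoin_pair_le_W (hd : 0 < d) (hyd : y ^ d ∈ W k x y d) {f : F}
    (hf : f ∈ IntermediateField.adjoin k ({x, y} : Set F)) : f ∈ W k x y d := by
  induction hf using IntermediateField.adjoin_induction with
  | mem f hf =>
    rcases hf with rfl | rfl
    · have := smul_mem_W_of_mem (mem_adjoin_simple_self k f) (one_mem_W (k := k) (x := f) (y := y) hd)
      rwa [mul_one] at this
    · have := pow_mem_W (k := k) (x := x) hd hyd 1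
      rwa [pow_one] at this
  | algebraMap a =>
    have := smul_mem_W_of_mem (k⟮x⟯.algebraMap_mem a) (one_mem_W (k := k) (x := x) (y := y) hd)
    rwa [mul_one] at this
  | add u v _ _ hu hv => exact Submodule.add_mem _ hu hv
  | inv u _ hu => exact inv_mem_W hd hyd hu
  | mul u v _ _ hu hv => exact mul_mem_W hyd hu hv

end SpanW


section Disjoint

variable {k K F : Type*} [Field k] [Field K] [Field F] [Algebra k K] [Algebra K F] [Algebra k F]
  [IsScalarTower k K F]
variable {x y : F} {d : ℕ}

theorem mem_adjoin_of_mem_adjoin_base {l : F} (hl : l ∈ k⟮x⟯) : l ∈ K⟮x⟯ := by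
  obtain ⟨r, q, rfl⟩ := (mem_adjoin_simple_iff k l).mp hl
  refine (mem_adjoin_simple_iff K _).mpr ⟨r.map (algebraMap k K), q.map (algebraMap k K), ?_⟩
  rw [aeval_map_algebraMap, aeval_map_algebraMap]

/-- Linear disjointness, left form: a `k`-independent family of `K` is independent over
`W = ∑ k(x) y^j`. -/
theorem eq_zero_of_sum_eq_zero_W (hx : Transcendental K x)
    (hind : LinearIndependent K⟮x⟯ (fun j : Fin d => y ^ (j : ℕ)))
    {m : ℕ} (b : Fin m → K) (hb : LinearIndependent k b) (g : Fin m → F)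
    (hg : ∀ s, g s ∈ W k x y d) (h : ∑ s, algebraMap K F (b s) * g s = 0) : ∀ s, g s = 0 := by
  have h1 : ∀ s, ∃ c : Fin d → k⟮x⟯, ∑ j, c j • y ^ (j : ℕ) = g s := fun s =>
    (Submodule.mem_span_range_iff_exists_fun k⟮x⟯).mp (hg s)
  choose c hc using h1
  have h2 : ∀ j, ∑ s, algebraMap K F (b s) * (c s j : F) = 0 := by
    have hmem : ∀ j, ∑ s, algebraMap K F (b s) * (c s j : F) ∈ K⟮x⟯ := fun j =>
      sum_mem fun s _ => mul_mem (K⟮x⟯.algebraMap_mem (b s))
        (mem_adjoin_of_mem_adjoin_base (c s j).2)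
    have h3 : ∑ j, (⟨_, hmem j⟩ : K⟮x⟯) • y ^ (j : ℕ) = 0 := by
      have e1 : ∀ j, (⟨_, hmem j⟩ : K⟮x⟯) • y ^ (j : ℕ)
          = ∑ s, algebraMap K F (b s) * ((c s j : F) * y ^ (j : ℕ)) := by
        intro j
        rw [Algebra.smul_def]
        show (∑ s, algebraMap K F (b s) * (c s j : F)) * y ^ (j : ℕ) = _
        rw [Finset.sum_mul]
        exact Finset.sum_congr rfl fun s _ => mul_assoc _ _ _
      rw [Finset.sum_congr rfl fun j _ => e1 j, Finset.sum_comm, ← h]
      refine Finset.sum_congr rfl fun s _ => ?_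
      rw [← Finset.mul_sum, ← hc s]
      congr 1
    intro j
    have h4 := Fintype.linearIndependent_iff.mp hind _ h3 j
    exact congrArg Subtype.val h4
  intro s
  rw [← hc s]
  have h4 : ∀ j, (c s j : F) = 0 := fun j =>
    eq_zero_of_sum_eq_zero hx b hb (fun s => (c s j : F)) (fun s => (c s j).2) (h2 j) s
  refine Finset.sum_eq_zero fun j _ => ?_
  rw [show c s j = 0 from Subtype.ext (h4 j), zero_smul]

/-- Linear disjointness, right form: a `k`-independent family of `W` is `K`-independent. -/
theorem linearIndependent_of_W (hx : Transcendental K x)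
    (hind : LinearIndependent K⟮x⟯ (fun j : Fin d => y ^ (j : ℕ)))
    {n : ℕ} (f : Fin n → F) (hf : ∀ i, f i ∈ W k x y d) (hfk : LinearIndependent k f) :
    LinearIndependent K f := by
  rw [Fintype.linearIndependent_iff]
  intro c hc
  let V : Submodule k K := Submodule.span k (Set.range c)
  have : FiniteDimensional k V := FiniteDimensional.span_of_finite k (Set.finite_range c)
  let B := Module.finBasis k V
  let b : Fin (Module.finrank k V) → K := fun s => (B s : K)
  have hb : LinearIndependent k b := B.linearIndependent.map' V.subtype (Submodule.ker_subtype V)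
  let a : Fin n → Fin (Module.finrank k V) → k :=
    fun i s => B.repr ⟨c i, Submodule.subset_span ⟨i, rfl⟩⟩ s
  have hca : ∀ i, c i = ∑ s, a i s • b s := by
    intro i
    have h1 := B.sum_repr ⟨c i, Submodule.subset_span ⟨i, rfl⟩⟩
    have h2 := congrArg (Subtype.val : V → K) h1
    rw [AddSubmonoidClass.coe_finsetSum] at h2
    exact h2.symm
  have hg : ∀ s, ∑ i, a i s • f i = 0 := by
    refine eq_zero_of_sum_eq_zero_W hx hind b hb (fun s => ∑ i, a i s • f i) (fun s => ?_) ?_
    · refine Submodule.sum_mem _ fun i _ => ?_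
      rw [Algebra.smul_def]
      exact smul_mem_W_of_mem (k⟮x⟯.algebraMap_mem (a i s)) (hf i)
    · rw [← hc]
      simp only [Finset.mul_sum]
      rw [Finset.sum_comm]
      refine Finset.sum_congr rfl fun i _ => ?_
      rw [hca i, Finset.sum_smul]
      refine Finset.sum_congr rfl fun s _ => ?_
      rw [Algebra.smul_def, Algebra.smul_def, Algebra.smul_def, map_mul,
        ← IsScalarTower.algebraMap_apply k K F]
      ring
  intro i
  have h5 : ∀ s, a i s = 0 := fun s =>
    Fintype.linearIndependent_iff.mp hfk (fun i => a i s) (hg s) i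
  rw [hca i]
  exact Finset.sum_eq_zero fun s _ => by rw [h5 s, zero_smul]

end Disjoint

section Assembly

variable {k K F : Type*} [Field k] [Field K] [Field F] [Algebra k K] [Algebra K F] [Algebra k F]
  [IsScalarTower k K F]
variable {x y : F} {d : ℕ}

omit [Field K] [Algebra k K] [Algebra K F] [IsScalarTower k K F] in
theorem isFunctionField_adjoin_pair (hxk : Transcendental k x) (hd : 0 < d)
    (hyd : y ^ d ∈ W k x y d) :
    IsFunctionField k (IntermediateField.adjoin k ({x, y} : Set F)) := by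
  have hxm : x ∈ IntermediateField.adjoin k ({x, y} : Set F) :=
    subset_adjoin k _ (Set.mem_insert x _)
  have hym : y ∈ IntermediateField.adjoin k ({x, y} : Set F) :=
    subset_adjoin k _ (Set.mem_insert_of_mem x rfl)
  refine ⟨⟨x, hxm⟩, ?_, ?_⟩
  · intro halg
    exact hxk (halg.algebraMap (A := F))
  · have hspan : Submodule.span k⟮(⟨x, hxm⟩ : IntermediateField.adjoin k ({x, y} : Set F))⟯
        (Set.range fun j : Fin d =>
          (⟨y, hym⟩ : IntermediateField.adjoin k ({x, y} : Set F)) ^ (j : ℕ)) = ⊤ := by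
      rw [eq_top_iff]
      rintro f -
      obtain ⟨c, hc⟩ := (Submodule.mem_span_range_iff_exists_fun k⟮x⟯).mp
        (adjoin_pair_le_W hd hyd f.2)
      have h1 : ∀ j, ∃ r q : k[X], (c j : F) = aeval x r / aeval x q := fun j =>
        (mem_adjoin_simple_iff k _).mp (c j).2
      choose r q hrq using h1
      have h2 : f = ∑ j, (⟨aeval (⟨x, hxm⟩ : IntermediateField.adjoin k ({x, y} : Set F)) (r j) /
          aeval (⟨x, hxm⟩ : IntermediateField.adjoin k ({x, y} : Set F)) (q j),
          aeval_div_mem _ _⟩ : k⟮(⟨x, hxm⟩ : IntermediateField.adjoin k ({x, y} : Set F))⟯) •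
            (⟨y, hym⟩ : IntermediateField.adjoin k ({x, y} : Set F)) ^ (j : ℕ) := by
        apply Subtype.ext
        rw [← hc, IntermediateField.coe_sum]
        refine Finset.sum_congr rfl fun j _ => ?_
        rw [Algebra.smul_def, Algebra.smul_def]
        show (c j : F) * y ^ (j : ℕ) = _
        rw [hrq j]
        simp only [IntermediateField.algebraMap_apply, IntermediateField.coe_mul,
          IntermediateField.coe_div, IntermediateField.coe_pow, ← IntermediateField.aeval_coe]
      rw [h2]
      exact Submodule.sum_mem _ fun j _ => Submodule.smul_mem _ _ (Submodule.subset_span ⟨j, rfl⟩)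
    exact Module.finite_def.mpr (hspan ▸ Submodule.fg_span (Set.finite_range _))

omit [Algebra k K] [IsScalarTower k K F] in
theorem adjoin_range_eq_top (hx : Transcendental K x)
    (hgen : ∀ f : F, ∃ (P : Fin d → K[X]) (q : K[X]), q ≠ 0 ∧
      f * aeval x q = ∑ j : Fin d, aeval x (P j) * y ^ (j : ℕ)) :
    IntermediateField.adjoin K
      (Set.range (algebraMap (IntermediateField.adjoin k ({x, y} : Set F)) F)) = ⊤ := by
  have hxm : x ∈ IntermediateField.adjoin k ({x, y} : Set F) :=
    subset_adjoin k _ (Set.mem_insert x _)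
  have hym : y ∈ IntermediateField.adjoin k ({x, y} : Set F) :=
    subset_adjoin k _ (Set.mem_insert_of_mem x rfl)
  rw [eq_top_iff]
  rintro f -
  obtain ⟨P, q, hq, hf⟩ := hgen f
  have hxE : x ∈ IntermediateField.adjoin K
      (Set.range (algebraMap (IntermediateField.adjoin k ({x, y} : Set F)) F)) :=
    subset_adjoin K _ ⟨⟨x, hxm⟩, rfl⟩
  have hyE : y ∈ IntermediateField.adjoin K
      (Set.range (algebraMap (IntermediateField.adjoin k ({x, y} : Set F)) F)) :=
    subset_adjoin K _ ⟨⟨y, hym⟩, rfl⟩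
  have haev : ∀ p : K[X], aeval x p ∈ IntermediateField.adjoin K
      (Set.range (algebraMap (IntermediateField.adjoin k ({x, y} : Set F)) F)) := by
    intro p
    have h1 := IntermediateField.aeval_coe (R := K) (S := IntermediateField.adjoin K
      (Set.range (algebraMap (IntermediateField.adjoin k ({x, y} : Set F)) F))) ⟨x, hxE⟩ p
    rw [show aeval x p = aeval ((⟨x, hxE⟩ : IntermediateField.adjoin K
      (Set.range (algebraMap (IntermediateField.adjoin k ({x, y} : Set F)) F))) : F) p from rfl, h1]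
    exact Subtype.property _
  have hq0 : aeval x q ≠ 0 := fun h0 => hq (transcendental_iff.mp hx q h0)
  have h2 : f = (∑ j : Fin d, aeval x (P j) * y ^ (j : ℕ)) / aeval x q := by
    rw [← hf, mul_div_assoc, div_self hq0, mul_one]
  rw [h2]
  exact div_mem (sum_mem fun j _ => mul_mem (haev _) (pow_mem hyE _)) (haev q)

/-- **The base-change predicate for the model `k(x, y)`.** -/
theorem isBC_adjoin_pair (hx : Transcendental K x) (hd : 0 < d)
    (hind : LinearIndependent K⟮x⟯ (fun j : Fin d => y ^ (j : ℕ)))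
    (hgen : ∀ f : F, ∃ (P : Fin d → K[X]) (q : K[X]), q ≠ 0 ∧
      f * aeval x q = ∑ j : Fin d, aeval x (P j) * y ^ (j : ℕ))
    (hrel : ∃ (P0 : Fin d → k[X]) (q0 : k[X]), q0 ≠ 0 ∧
      y ^ d * aeval x q0 = ∑ j : Fin d, aeval x (P0 j) * y ^ (j : ℕ)) :
    IsBC k K (IntermediateField.adjoin k ({x, y} : Set F)) F := by
  have hxk : Transcendental k x := hx.restrictScalars (algebraMap k K).injective
  have hyd := pow_d_mem_W hxk hrel
  refine ⟨isFunctionField_adjoin_pair hxk hd hyd, fun n f hf => ?_, adjoin_range_eq_top hx hgen⟩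
  exact linearIndependent_of_W hx hind (fun i => (f i : F))
    (fun i => adjoin_pair_le_W hd hyd (f i).2)
    (hf.map' (IntermediateField.val _).toLinearMap (LinearMap.ker_eq_bot.mpr Subtype.val_injective))

end Assembly

section Model

/-- A function field in characteristic zero has a "power basis presentation" over `K(x)`. -/
theorem exists_presentation {K F : Type*} [Field K] [Field F] [Algebra K F] [CharZero K]
    (hF : IsFunctionField K F) :
    ∃ (x y : F) (d : ℕ), Transcendental K x ∧ FiniteDimensional K⟮x⟯ F ∧ 0 < d ∧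
      LinearIndependent K⟮x⟯ (fun j : Fin d => y ^ (j : ℕ)) ∧
      ∀ f : F, ∃ (P : Fin d → K[X]) (q : K[X]), q ≠ 0 ∧
        f * aeval x q = ∑ j : Fin d, aeval x (P j) * y ^ (j : ℕ) := by
  obtain ⟨x, hx, hfin⟩ := hF
  have : CharZero K⟮x⟯ := charZero_of_injective_algebraMap (algebraMap K K⟮x⟯).injective
  let pb := Field.powerBasisOfFiniteOfSeparable K⟮x⟯ F
  have hind : LinearIndependent K⟮x⟯ (fun j : Fin pb.dim => pb.gen ^ (j : ℕ)) := by
    have := pb.basis.linearIndependent
    rwa [pb.coe_basis] at this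
  refine ⟨x, pb.gen, pb.dim, hx, hfin, pb.dim_pos, hind, fun f => ?_⟩
  obtain ⟨P, q, hq, hPq⟩ := exists_common_denominator hx (fun j => ((pb.basis.repr f j : K⟮x⟯) : F))
    (fun j => (pb.basis.repr f j).2)
  refine ⟨P, q, hq, ?_⟩
  have h1 : f = ∑ j, ((pb.basis.repr f j : K⟮x⟯) : F) * pb.gen ^ (j : ℕ) := by
    conv_lhs => rw [← pb.basis.sum_repr f]
    refine Finset.sum_congr rfl fun j _ => ?_
    rw [pb.coe_basis, Algebra.smul_def]
    rfl
  conv_lhs => rw [h1]
  rw [Finset.sum_mul]
  refine Finset.sum_congr rfl fun j _ => ?_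
  rw [← hPq j]
  ring

/-- A countable algebraically closed subfield containing a given countable set. -/
theorem exists_countable_isAlgClosed_subfield {K : Type*} [Field K] [IsAlgClosed K]
    (S : Set K) (hS : S.Countable) :
    ∃ k1 : Subfield K, IsAlgClosed k1 ∧ Countable k1 ∧ S ⊆ k1 := by
  have h0 : Countable (Subfield.closure S) := by
    rw [← Cardinal.mk_le_aleph0_iff]
    refine (Subfield.cardinalMk_closure_le_max S).trans (max_le ?_ le_rfl)
    exact Cardinal.le_aleph0_iff_set_countable.mpr hS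
  refine ⟨(algebraicClosure (Subfield.closure S) K).toSubfield, ?_, ?_, ?_⟩
  · exact (algebraicClosure.isAlgClosure (F := Subfield.closure S) (E := K)).isAlgClosed
  · show Countable (algebraicClosure (Subfield.closure S) K)
    rw [← Cardinal.mk_le_aleph0_iff]
    refine (Algebra.IsAlgebraic.cardinalMk_le_max (Subfield.closure S)
      (algebraicClosure (Subfield.closure S) K)).trans (max_le ?_ le_rfl)
    exact Cardinal.mk_le_aleph0_iff.mpr h0
  · intro a ha
    exact (algebraicClosure (Subfield.closure S) K).algebraMap_mem ⟨a, Subfield.subset_closure ha⟩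

/-- Polynomials with coefficients in a subfield descend to the subfield. -/
theorem exists_map_eq {K : Type*} [Field K] (k1 : Subfield K) (p : K[X])
    (hp : ∀ n, p.coeff n ∈ k1) : ∃ p' : k1[X], p'.map (algebraMap k1 K) = p := by
  have : p ∈ Polynomial.lifts (algebraMap k1 K) := by
    rw [Polynomial.lifts_iff_coeff_lifts]
    intro n
    exact ⟨⟨p.coeff n, hp n⟩, rfl⟩
  exact (Polynomial.mem_lifts p).mp this

/-- **Countable models** (core of leaf F5a, independent of the place-extension leaves): `F/K` is the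
base change of `k1(x, y)` for a countable algebraically closed subfield `k1 ⊆ K`, and `k1` can be
chosen so that no place of a given finite set is trivial on `k1(x, y)`. -/
theorem exists_countable_model_core {K F : Type*} [Field K] [Field F] [Algebra K F]
    [IsAlgClosed K] [CharZero K] (hF : IsFunctionField K F) (T : Finset (Place K F)) :
    ∃ (k1 : Subfield K) (F1 : IntermediateField k1 F),
      IsAlgClosed k1 ∧ Countable k1 ∧ IsBC k1 K F1 F ∧
        ∀ Q ∈ T, ∃ f : F1, Q.ord (algebraMap F1 F f) ≠ 0 := by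
  classical
  obtain ⟨x, y, d, hx, hfin, hd, hind, hgen⟩ := exists_presentation hF
  obtain ⟨P0, q0, hq0, hrel0⟩ := hgen (y ^ d)
  -- values of `x` at the places of `T`
  let cval : Place K F → K := fun Q =>
    if h : ∃ c : K, 0 < Q.ord (x - algebraMap K F c) then h.choose else 0
  let S : Set K := (⋃ j, Set.range (P0 j).coeff) ∪ Set.range q0.coeff ∪ cval '' (T : Set (Place K F))
  have hS : S.Countable :=
    ((Set.countable_iUnion fun j => Set.countable_range _).union (Set.countable_range _)).union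
      ((T.finite_toSet.image cval).countable)
  obtain ⟨k1, hk1, hk1c, hSk1⟩ := exists_countable_isAlgClosed_subfield S hS
  have hP0 : ∀ j, ∃ p' : k1[X], p'.map (algebraMap k1 K) = P0 j := fun j =>
    exists_map_eq k1 (P0 j) fun n =>
      hSk1 (Or.inl (Or.inl (Set.mem_iUnion.mpr ⟨j, ⟨n, rfl⟩⟩)))
  choose P0' hP0' using hP0
  obtain ⟨q0', hq0'⟩ := exists_map_eq k1 q0 fun n => hSk1 (Or.inl (Or.inr ⟨n, rfl⟩))
  have hrel : ∃ (P1 : Fin d → k1[X]) (q1 : k1[X]), q1 ≠ 0 ∧
      y ^ d * aeval x q1 = ∑ j : Fin d, aeval x (P1 j) * y ^ (j : ℕ) := by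
    refine ⟨P0', q0', ?_, ?_⟩
    · rintro rfl
      exact hq0 (by rw [← hq0', Polynomial.map_zero])
    · rw [← aeval_map_algebraMap K x q0', hq0', hrel0]
      refine Finset.sum_congr rfl fun j _ => ?_
      rw [← aeval_map_algebraMap K x (P0' j), hP0' j]
  have hBC : IsBC k1 K (IntermediateField.adjoin k1 ({x, y} : Set F)) F :=
    isBC_adjoin_pair hx hd hind hgen hrel
  refine ⟨k1, IntermediateField.adjoin k1 ({x, y} : Set F), hk1, hk1c, hBC, fun Q hQ => ?_⟩
  have : FiniteDimensional K⟮x⟯ F := hfin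
  have hxm : x ∈ IntermediateField.adjoin k1 ({x, y} : Set F) :=
    subset_adjoin k1 _ (Set.mem_insert x _)
  by_cases hQx : 0 ≤ Q.ord x
  · have hex : ∃ c : K, 0 < Q.ord (x - algebraMap K F c) :=
      Fermat.Agent.S24.A564.exists_const_ord_pos x hx Q hQx
    have hc : 0 < Q.ord (x - algebraMap K F (cval Q)) := by
      have : cval Q = hex.choose := dif_pos hex
      rw [this]
      exact hex.choose_spec
    have hmem : cval Q ∈ k1 := hSk1 (Or.inr ⟨Q, hQ, rfl⟩)
    refine ⟨⟨x, hxm⟩ - algebraMap k1 _ ⟨cval Q, hmem⟩, ?_⟩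
    have h2 : algebraMap (IntermediateField.adjoin k1 ({x, y} : Set F)) F
        (⟨x, hxm⟩ - algebraMap k1 _ ⟨cval Q, hmem⟩) = x - algebraMap K F (cval Q) := by
      rw [map_sub]
      rfl
    rw [h2]
    omega
  · refine ⟨⟨x, hxm⟩, ?_⟩
    have h2 : algebraMap (IntermediateField.adjoin k1 ({x, y} : Set F)) F ⟨x, hxm⟩ = x := rfl
    rw [h2]
    omega

end Model

end Fermat.Agent.S27.Lef.M7646
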