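import Fermat.Agent.S27.Lef.Defs
import Fermat.Agent.S27.H9674.TensorDomain
import Fermat.Agent.S27.H9674.EmbedComplex

/-!
# S27, package F, leaf F5b: auxiliary constructions (helper5942)

* `MC5942.exists_model_of_algEquiv` : for `k` algebraically closed, `K/k` any field extension and
  `F1/k` a function field, the fraction field of `K ⊗[k] F1'` (`F1'` any isomorphic copy of `F1`,
  used to control the universe) is a base change of `F1/k` in the sense of `IsBC`.
* `MC5942.countable_of_isFunctionField` : a function field over a countable field is countable.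
-/

set_option autoImplicit false

namespace Fermat.Agent.S27.Lef.MC5942

open AlgebraicCurve IntermediateField TensorProduct Cardinal

universe u1 u2 u3 u4

/-- A function field in one variable over a countable field is countable. -/
theorem countable_of_isFunctionField {k : Type u1} {F : Type u3} [Field k] [Field F] [Algebra k F]
    [Countable k] (h : IsFunctionField k F) : Countable F := by
  obtain ⟨x, -, hfin⟩ := h
  have h1 : Cardinal.lift.{u1} #(k⟮x⟯) ≤ ℵ₀ := by
    refine (IntermediateField.lift_cardinalMk_adjoin_le k ({x} : Set F)).trans ?_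
    refine sup_le (sup_le ?_ ?_) le_rfl
    · exact Cardinal.lift_le_aleph0.mpr Cardinal.mk_le_aleph0
    · exact Cardinal.lift_le_aleph0.mpr Cardinal.mk_le_aleph0
  have h2 : #(k⟮x⟯) ≤ ℵ₀ := Cardinal.lift_le_aleph0.mp h1
  have h3 : #F ≤ max #(k⟮x⟯) ℵ₀ := Algebra.IsAlgebraic.cardinalMk_le_max (k⟮x⟯) F
  exact Cardinal.mk_le_aleph0_iff.mp (h3.trans (max_le h2 le_rfl))

/-- The fraction field of `K ⊗[k] F1'` is a base change of the function field `F1 ≃ F1'`. -/
theorem exists_model_of_algEquiv {k : Type u1} {K : Type u2} {F1 : Type u3} {F1' : Type u4}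
    [Field k] [Field K] [Field F1] [Field F1'] [Algebra k K] [Algebra k F1] [Algebra k F1']
    [IsAlgClosed k] (e : F1 ≃ₐ[k] F1') (h1 : IsFunctionField k F1) :
    ∃ (FC : Type (max u4 u2)) (_ : Field FC) (_ : Algebra K FC) (_ : Algebra F1 FC)
      (_ : Algebra k FC) (_ : IsScalarTower k K FC) (_ : IsScalarTower k F1 FC),
      IsBC k K F1 FC := by
  classical
  haveI hdom : IsDomain (K ⊗[k] F1') := H9674.isDomain_tensorProduct k K F1'
  -- the ring homomorphism `F1 → Frac (K ⊗ F1')`
  let ι : F1 →+* FractionRing (K ⊗[k] F1') :=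
    (algebraMap (K ⊗[k] F1') (FractionRing (K ⊗[k] F1'))).comp
      ((Algebra.TensorProduct.includeRight : F1' →ₐ[k] K ⊗[k] F1').toRingHom.comp
        (e : F1 →+* F1'))
  have hι : ∀ f : F1, ι f = algebraMap (K ⊗[k] F1') (FractionRing (K ⊗[k] F1'))
      ((1 : K) ⊗ₜ[k] e f) := fun f => rfl
  letI algF : Algebra F1 (FractionRing (K ⊗[k] F1')) := ι.toAlgebra
  have halg : ∀ f : F1, algebraMap F1 (FractionRing (K ⊗[k] F1')) f =
      algebraMap (K ⊗[k] F1') (FractionRing (K ⊗[k] F1')) ((1 : K) ⊗ₜ[k] e f) := fun f => rfl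
  have hinj : Function.Injective (algebraMap (K ⊗[k] F1') (FractionRing (K ⊗[k] F1'))) :=
    IsFractionRing.injective _ _
  haveI tower2 : IsScalarTower k F1 (FractionRing (K ⊗[k] F1')) := by
    refine IsScalarTower.of_algebraMap_eq fun c => ?_
    rw [halg, IsScalarTower.algebraMap_apply k (K ⊗[k] F1') (FractionRing (K ⊗[k] F1'))]
    congr 1
    rw [AlgEquiv.commutes, Algebra.TensorProduct.algebraMap_apply,
      Algebra.algebraMap_eq_smul_one, Algebra.algebraMap_eq_smul_one (R := k) (A := F1'),
      TensorProduct.smul_tmul]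
  refine ⟨FractionRing (K ⊗[k] F1'), inferInstance, inferInstance, algF, inferInstance,
    inferInstance, tower2, ?_⟩
  refine ⟨h1, ?_, ?_⟩
  · -- linear disjointness
    intro n f hf
    have hg : LinearIndependent k (fun i => e (f i)) :=
      hf.map' e.toLinearMap (LinearMap.ker_eq_bot.mpr e.injective)
    have h2 : LinearIndependent K (fun i => (1 : K) ⊗ₜ[k] e (f i)) :=
      Module.Flat.linearIndependent_one_tmul (S := K) hg
    have h3 := h2.map' ((Algebra.linearMap (K ⊗[k] F1') (FractionRing (K ⊗[k] F1'))).restrictScalars K)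
      (LinearMap.ker_eq_bot.mpr hinj)
    exact h3
  · -- generation
    rw [eq_top_iff]
    intro z _
    have hT : ∀ t : K ⊗[k] F1', algebraMap (K ⊗[k] F1') (FractionRing (K ⊗[k] F1')) t ∈
        IntermediateField.adjoin K
          (Set.range (algebraMap F1 (FractionRing (K ⊗[k] F1')))) := by
      intro t
      induction t using TensorProduct.induction_on with
      | zero => rw [map_zero]; exact zero_mem _
      | tmul c f =>
        have h1 : c ⊗ₜ[k] f = algebraMap K (K ⊗[k] F1') c * ((1 : K) ⊗ₜ[k] f) := by
          rw [Algebra.TensorProduct.algebraMap_apply, Algebra.TensorProduct.tmul_mul_tmul]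
          simp
        rw [h1, map_mul]
        refine mul_mem ?_ ?_
        · rw [← IsScalarTower.algebraMap_apply K (K ⊗[k] F1') (FractionRing (K ⊗[k] F1'))]
          exact IntermediateField.algebraMap_mem _ c
        · refine IntermediateField.subset_adjoin _ _ ⟨e.symm f, ?_⟩
          rw [halg, AlgEquiv.apply_symm_apply]
      | add x y hx hy => rw [map_add]; exact add_mem hx hy
    obtain ⟨a, b, -, rfl⟩ := IsFractionRing.div_surjective (A := K ⊗[k] F1') z
    exact div_mem (hT a) (hT b)

end Fermat.Agent.S27.Lef.MC5942
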