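import Fermat.Agent.S27.Lef.Places
import Fermat.Agent.S27.Lef.ModelAux7646

/-!
# S27, package F, leaf F5a: models over countable subfields

LEAF `exists_countable_model` : `F/K` is the base change of a function field over a countable
algebraically closed subfield `k1 ⊆ K`, and `k1` can be chosen so that finitely many given
places are rational.

Proved by helper7646: `F = K(x)[y]` with `y` a primitive element, `k1` = algebraic closure in `K`
of the field generated by the coefficients of the relation `y^d = ∑ (p_j(x)/q(x)) y^j` and the
values `x(Q)`, `Q ∈ T`; `F1 = k1(x, y)` (`M7646.exists_countable_model_core`, fully proved, in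
`Lef/ModelAux7646.lean`); rationality of `Q ∈ T` from leaf F1b `IsBC.liesOver_or_trivial`.
-/

set_option autoImplicit false

namespace Fermat.Agent.S27.Lef

open AlgebraicCurve IntermediateField

/-- LEAF F5a. -/
theorem exists_countable_model {K F : Type*} [Field K] [Field F] [Algebra K F]
    [IsAlgClosed K] [CharZero K] (hF : IsFunctionField K F) (T : Finset (Place K F)) :
    ∃ (k1 : Subfield K) (F1 : IntermediateField k1 F),
      IsAlgClosed k1 ∧ Countable k1 ∧ IsBC k1 K F1 F ∧
        ∀ Q ∈ T, ∃ P : Place k1 F1, LiesOver Q P := by
  obtain ⟨k1, F1, hk1, hk1c, hBC, hT⟩ := M7646.exists_countable_model_core hF T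
  refine ⟨k1, F1, hk1, hk1c, hBC, fun Q hQ => ?_⟩
  have : IsAlgClosed k1 := hk1
  have : CharZero k1 := ⟨fun a b hab => by
    have h1 := congrArg (k1.subtype) hab
    simpa using h1⟩
  obtain ⟨f, hf⟩ := hT Q hQ
  rcases hBC.liesOver_or_trivial Q with h | h0
  · exact h
  · exact absurd (h0 f) hf

end Fermat.Agent.S27.Lef
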