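/-
S27 package F, leaf F1 of the helper2906 skeleton: proofs of `IsBC.exists_unique_liesOver` and
`IsBC.liesOver_or_trivial` (helper4502), from the interface-free Gauss extension of places in
`Fermat/Agent/S27/PlaceExt.lean`.  Inputs: leaf F0 `IsBC.linearIndependent_left`,
`IsFunctionField.residue_surjective` and A1 `IsFunctionField.isPrincipalIdealRing_of_ne_top`.
-/
import Fermat.Agent.S27.Lef.AFacts
import Fermat.Agent.S27.Lef.BCBasic
import Fermat.Agent.S27.PlaceExt

set_option autoImplicit false

namespace Fermat.Agent.S27.Lef.PlacesAux4502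

open AlgebraicCurve IntermediateField Module

variable {k K F0 F : Type*} [Field k] [Field K] [Field F0] [Field F]
  [Algebra k K] [Algebra k F0] [Algebra K F] [Algebra F0 F] [Algebra k F]
  [IsScalarTower k K F] [IsScalarTower k F0 F]

/-- Linear disjointness for an arbitrary `k`-linearly independent family of `K`. -/
theorem linearIndependent_left' (h : IsBC k K F0 F) {ι : Type*} (c : ι → K)
    (hc : LinearIndependent k c) : LinearIndependent F0 (fun i => algebraMap K F (c i)) := by
  classical
  rw [linearIndependent_iff_finset_linearIndependent]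
  intro s
  have e : s ≃ Fin s.card := s.equivFin
  have h1 : LinearIndependent k (fun j : Fin s.card => c (e.symm j)) :=
    hc.comp (fun j : Fin s.card => ((e.symm j : s) : ι))
      (Subtype.val_injective.comp e.symm.injective)
  have h2 := h.linearIndependent_left s.card _ h1
  have h3 := h2.comp e e.injective
  convert h3 using 1
  funext i
  simp

/-- The `F0`-span of `K` in `F` is closed under multiplication. -/
theorem span_mul_mem {a b : F} (ha : a ∈ Submodule.span F0 (Set.range (algebraMap K F)))
    (hb : b ∈ Submodule.span F0 (Set.range (algebraMap K F))) :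
    a * b ∈ Submodule.span F0 (Set.range (algebraMap K F)) := by
  have h1 : a * b ∈ Submodule.span F0 (Set.range (algebraMap K F)) *
      Submodule.span F0 (Set.range (algebraMap K F)) := Submodule.mul_mem_mul ha hb
  rw [Submodule.span_mul_span] at h1
  refine Submodule.span_mono ?_ h1
  rintro _ ⟨_, ⟨x, rfl⟩, _, ⟨y, rfl⟩, rfl⟩
  exact ⟨x * y, map_mul _ _ _⟩

theorem adjoin_le_span :
    ∀ x ∈ Algebra.adjoin K (Set.range (algebraMap F0 F)),
      x ∈ Submodule.span F0 (Set.range (algebraMap K F)) := by
  intro x hx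
  induction hx using Algebra.adjoin_induction with
  | mem x hx =>
    obtain ⟨f0, rfl⟩ := hx
    have : algebraMap F0 F f0 = f0 • (algebraMap K F 1) := by
      rw [map_one, Algebra.smul_def, mul_one]
    rw [this]
    exact Submodule.smul_mem _ _ (Submodule.subset_span ⟨1, rfl⟩)
  | algebraMap r => exact Submodule.subset_span ⟨r, rfl⟩
  | add x y _ _ hx hy => exact Submodule.add_mem _ hx hy
  | mul x y _ _ hx hy => exact span_mul_mem hx hy

/-- `Gen` from `F = K(F0)`. -/
theorem gen_of_isBC (h : IsBC k K F0 F) {ι : Type*} (B : Basis ι k K) :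
    PlaceExt.Gen F0 F B := by
  apply PlaceExt.gen_of_span
  intro f
  have hf : f ∈ IntermediateField.adjoin K (Set.range (algebraMap F0 F)) := by
    rw [h.adjoin_eq_top]; exact IntermediateField.mem_top
  obtain ⟨r, hr, s, hs, rfl⟩ := IntermediateField.mem_adjoin_iff_div.1 hf
  by_cases hs0 : s = 0
  · refine ⟨0, Submodule.zero_mem _, 1, ?_, one_ne_zero, by simp [hs0]⟩
    exact Submodule.subset_span ⟨1, map_one _⟩
  · exact ⟨r, adjoin_le_span r hr, s, adjoin_le_span s hs, hs0, rfl⟩

variable [IsAlgClosed k] [IsAlgClosed K] [CharZero k]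

/-- LEAF F1a of the helper2906 skeleton. -/
theorem exists_unique_liesOver (h : IsBC k K F0 F) (P : Place k F0) :
    ∃! Q : Place K F, LiesOver Q P := by
  have hLD := linearIndependent_left' h _ (Basis.ofVectorSpace k K).linearIndependent
  have hgen := gen_of_isBC h (Basis.ofVectorSpace k K)
  have hres := h.isFF.residue_surjective P
  refine ⟨PlaceExt.ext (Basis.ofVectorSpace k K) P hLD hgen hres,
    PlaceExt.ord_ext (Basis.ofVectorSpace k K) P hLD hgen hres, fun Q hQ => ?_⟩
  exact PlaceExt.eq_ext_of_ord (Basis.ofVectorSpace k K) P hLD hgen hres Q hQ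

/-- LEAF F1b of the helper2906 skeleton. -/
theorem liesOver_or_trivial (h : IsBC k K F0 F) (Q : Place K F) :
    (∃ P : Place k F0, LiesOver Q P) ∨ ∀ f : F0, Q.ord (algebraMap F0 F f) = 0 := by
  have hLD := linearIndependent_left' h _ (Basis.ofVectorSpace k K).linearIndependent
  have hgen := gen_of_isBC h (Basis.ofVectorSpace k K)
  have hA1 : ∀ O : ValuationSubring F0, (∀ a : k, algebraMap k F0 a ∈ O) → O ≠ ⊤ →
      ∃ v0 : Place k F0, v0.toValuationSubring = O := fun O hk hO =>
    ⟨⟨O, hk, hO, h.isFF.isPrincipalIdealRing_of_ne_top O hk hO⟩, rfl⟩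
  rcases PlaceExt.ord_eq_zero_or_exists_eq_ext (Basis.ofVectorSpace k K) hLD hgen hA1
    (fun v0 => h.isFF.residue_surjective v0) Q with h0 | ⟨P, hP⟩
  · exact Or.inr h0
  · refine Or.inl ⟨P, ?_⟩
    rw [hP]
    exact PlaceExt.ord_ext (Basis.ofVectorSpace k K) P hLD hgen _

end Fermat.Agent.S27.Lef.PlacesAux4502
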