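import Fermat.Agent.S27.Lef.AFacts
import Fermat.Agent.S27.Lef.BCBasic
import Fermat.Agent.S27.Lef.PlacesAux4502

/-!
# S27, package F, leaf F1: places under base change  (helper2906)

Setting: `k ⊆ K` algebraically closed of characteristic zero, `IsBC k K F0 F`.

LEAVES (both PROVED by helper4502 in `Lef/PlacesAux4502.lean` + `S27/PlaceExt.lean`):
* `IsBC.exists_unique_liesOver` : every place of `F0/k` extends uniquely to a place of `F/K`
  with the same order function on `F0`;
* `IsBC.liesOver_or_trivial`    : a place of `F/K` either lies over a place of `F0/k`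
  ("rational place") or is trivial on `F0`.

GLUE (sorry-free on top of the leaves): `extPlace`, `extDiv`, `extDegZero`, `extPic0`.
-/

set_option autoImplicit false

namespace Fermat.Agent.S27.Lef

open AlgebraicCurve IntermediateField

variable {k K F0 F : Type*} [Field k] [Field K] [Field F0] [Field F]
  [Algebra k K] [Algebra k F0] [Algebra K F] [Algebra F0 F] [Algebra k F]
  [IsScalarTower k K F] [IsScalarTower k F0 F]

/-- A place is determined by its order function. -/
theorem place_ext_ord {K F : Type*} [Field K] [Field F] [Algebra K F] {P P' : Place K F}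
    (hPP : ∀ f : F, P.ord f = P'.ord f) : P = P' := by
  apply Place.ext
  ext f
  rcases eq_or_ne f 0 with rfl | hf
  · simp
  · rw [Fermat.Agent.S24.A564.SO.Place_mem_iff P hf, Fermat.Agent.S24.A564.SO.Place_mem_iff P' hf,
      hPP f]

theorem LiesOver.unique {Q : Place K F} {P P' : Place k F0} (h1 : LiesOver Q P)
    (h2 : LiesOver Q P') : P = P' :=
  place_ext_ord fun f => by rw [← h1 f, ← h2 f]

namespace IsBC

section
variable [IsAlgClosed k] [IsAlgClosed K] [CharZero k]

/-- LEAF F1a. Every place of `F0/k` has exactly one extension to `F/K`. -/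
theorem exists_unique_liesOver (h : IsBC k K F0 F) (P : Place k F0) :
    ∃! Q : Place K F, LiesOver Q P :=
  PlacesAux4502.exists_unique_liesOver h P

/-- LEAF F1b. A place of `F/K` lies over a place of `F0/k` or is trivial on `F0`. -/
theorem liesOver_or_trivial (h : IsBC k K F0 F) (Q : Place K F) :
    (∃ P : Place k F0, LiesOver Q P) ∨ ∀ f : F0, Q.ord (algebraMap F0 F f) = 0 :=
  PlacesAux4502.liesOver_or_trivial h Q

/-- The extension of a place of `F0/k` to `F/K`. -/
noncomputable def extPlace (h : IsBC k K F0 F) (P : Place k F0) : Place K F :=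
  Classical.choose (h.exists_unique_liesOver P).exists

theorem liesOver_extPlace (h : IsBC k K F0 F) (P : Place k F0) : LiesOver (h.extPlace P) P :=
  Classical.choose_spec (h.exists_unique_liesOver P).exists

theorem extPlace_ord (h : IsBC k K F0 F) (P : Place k F0) (f : F0) :
    (h.extPlace P).ord (algebraMap F0 F f) = P.ord f :=
  h.liesOver_extPlace P f

theorem eq_extPlace_of_liesOver (h : IsBC k K F0 F) {Q : Place K F} {P : Place k F0}
    (hQ : LiesOver Q P) : Q = h.extPlace P :=
  (h.exists_unique_liesOver P).unique hQ (h.liesOver_extPlace P)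

theorem extPlace_injective (h : IsBC k K F0 F) : Function.Injective h.extPlace := by
  intro P P' hPP
  have h1 := h.liesOver_extPlace P
  rw [hPP] at h1
  exact h1.unique (h.liesOver_extPlace P')

theorem mem_range_extPlace_iff (h : IsBC k K F0 F) {Q : Place K F} :
    Q ∈ Set.range h.extPlace ↔ ∃ P : Place k F0, LiesOver Q P := by
  constructor
  · rintro ⟨P, rfl⟩
    exact ⟨P, h.liesOver_extPlace P⟩
  · rintro ⟨P, hP⟩
    exact ⟨P, (h.eq_extPlace_of_liesOver hP).symm⟩

theorem ord_eq_zero_of_notMem_range (h : IsBC k K F0 F) {Q : Place K F}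
    (hQ : Q ∉ Set.range h.extPlace) (f : F0) : Q.ord (algebraMap F0 F f) = 0 := by
  rcases h.liesOver_or_trivial Q with hP | h0
  · exact absurd (h.mem_range_extPlace_iff.mpr hP) hQ
  · exact h0 f

/-- Extension of divisors. -/
noncomputable def extDiv (h : IsBC k K F0 F) : Divisor k F0 →+ Divisor K F :=
  Finsupp.mapDomain.addMonoidHom h.extPlace

theorem extDiv_apply_extPlace (h : IsBC k K F0 F) (D0 : Divisor k F0) (P : Place k F0) :
    h.extDiv D0 (h.extPlace P) = D0 P :=
  Finsupp.mapDomain_apply h.extPlace_injective D0 P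

theorem extDiv_apply_of_notMem_range (h : IsBC k K F0 F) (D0 : Divisor k F0) {Q : Place K F}
    (hQ : Q ∉ Set.range h.extPlace) : h.extDiv D0 Q = 0 :=
  Finsupp.mapDomain_notin_range D0 Q hQ

theorem extDiv_single (h : IsBC k K F0 F) (P : Place k F0) (n : ℤ) :
    h.extDiv (Finsupp.single P n) = Finsupp.single (h.extPlace P) n :=
  Finsupp.mapDomain_single

theorem extDiv_injective (h : IsBC k K F0 F) : Function.Injective h.extDiv :=
  Finsupp.mapDomain_injective h.extPlace_injective

/-- A divisor supported on rational places is the extension of a divisor of `F0`. -/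
theorem exists_extDiv_eq (h : IsBC k K F0 F) (D : Divisor K F)
    (hD : ∀ Q ∈ D.support, ∃ P : Place k F0, LiesOver Q P) : ∃ D0 : Divisor k F0, h.extDiv D0 = D := by
  refine ⟨D.comapDomain h.extPlace h.extPlace_injective.injOn, ?_⟩
  refine Finsupp.mapDomain_comapDomain h.extPlace h.extPlace_injective D ?_
  intro Q hQ
  exact h.mem_range_extPlace_iff.mpr (hD Q hQ)

theorem degree_extDiv (h : IsBC k K F0 F) (D0 : Divisor k F0) :
    Divisor.degree (h.extDiv D0) = Divisor.degree D0 := by
  haveI : CharZero K := charZero_of_injective_algebraMap (algebraMap k K).injective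
  induction D0 using Finsupp.induction with
  | zero => simp
  | single_add P n D _ _ ih =>
    rw [map_add, map_add, map_add, ih, extDiv_single, Divisor.degree_single,
      Divisor.degree_single, h.isFF_top.place_deg_eq_one, h.isFF.place_deg_eq_one]

/-- The extension of the divisor of `f ∈ F0` is the divisor of `f` in `F`. -/
theorem extDiv_apply_of_forall_ord (h : IsBC k K F0 F) {D0 : Divisor k F0} {f : F0}
    (hD0 : ∀ P : Place k F0, D0 P = P.ord f) (Q : Place K F) :
    h.extDiv D0 Q = Q.ord (algebraMap F0 F f) := by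
  by_cases hQ : Q ∈ Set.range h.extPlace
  · obtain ⟨P, rfl⟩ := hQ
    rw [extDiv_apply_extPlace, hD0, extPlace_ord]
  · rw [extDiv_apply_of_notMem_range h D0 hQ, h.ord_eq_zero_of_notMem_range hQ]

theorem extDiv_mem_principal (h : IsBC k K F0 F) {D0 : Divisor k F0}
    (hD0 : D0 ∈ Divisor.principal (K := k) (F := F0)) :
    h.extDiv D0 ∈ Divisor.principal (K := K) (F := F) := by
  obtain ⟨f, hf, hD⟩ := hD0
  exact ⟨algebraMap F0 F f, by simpa using hf, h.extDiv_apply_of_forall_ord hD⟩

/-- Extension of divisors of degree zero. -/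
noncomputable def extDegZero (h : IsBC k K F0 F) :
    Divisor.degZero (K := k) (F := F0) →+ Divisor.degZero (K := K) (F := F) :=
  (h.extDiv.comp (Divisor.degZero (K := k) (F := F0)).subtype).codRestrict _ (fun D => by
    rw [Divisor.mem_degZero]
    show Divisor.degree (h.extDiv (D : Divisor k F0)) = 0
    rw [h.degree_extDiv]
    exact D.2)

@[simp]
theorem coe_extDegZero (h : IsBC k K F0 F) (D : Divisor.degZero (K := k) (F := F0)) :
    (h.extDegZero D : Divisor K F) = h.extDiv (D : Divisor k F0) := rfl

/-- The map `Pic0(F0) → Pic0(F)`. -/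
noncomputable def extPic0 (h : IsBC k K F0 F) : Pic0 k F0 →+ Pic0 K F :=
  QuotientAddGroup.map _ _ h.extDegZero (by
    rintro ⟨D, hD0⟩ hD
    simp only [AddSubgroup.mem_addSubgroupOf, AddSubgroup.mem_comap] at hD ⊢
    exact h.extDiv_mem_principal hD)

theorem extPic0_mk (h : IsBC k K F0 F) (D : Divisor.degZero (K := k) (F := F0)) :
    h.extPic0 (Pic0.mk D) = Pic0.mk (h.extDegZero D) := rfl

end

end IsBC

end Fermat.Agent.S27.Lef
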